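/-
S21 (Eichler–Shimura), part D: shared definitions for the permutation-module linear algebra.
`Q` is a (finite) set with permutations `s`, `t`; `V = Q → ℂ`.
No sorries here.
-/
import Mathlib

set_option autoImplicit false

namespace Fermat.Agent.S21L

variable {Q : Type*}

/-- Functions on `Q` invariant under the permutation `s`. -/
def fixedSpace (s : Equiv.Perm Q) : Submodule ℂ (Q → ℂ) where
  carrier := {v | ∀ q, v (s q) = v q}
  zero_mem' := fun _ => rfl
  add_mem' := by
    intro a b ha hb q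
    simp only [Pi.add_apply, ha q, hb q]
  smul_mem' := by
    intro c a ha q
    simp only [Pi.smul_apply, ha q]

theorem mem_fixedSpace (s : Equiv.Perm Q) (v : Q → ℂ) :
    v ∈ fixedSpace s ↔ ∀ q, v (s q) = v q := Iff.rfl

/-- The space of pairs `(a, b)` satisfying the three cocycle relations:
* `a + S a = 0`                      (`S² = 1`),
* `(1 + T + ⋯ + T^(m-1)) b = 0`      (`T^m = 1`, parabolic condition),
* `(1 + U + U²)(a + S b) = 0`        (`U = S T`, `U³ = 1`),
where `(S v) q = v (s q)`, `(T v) q = v (t q)`, `(U v) q = v (t (s q))`. -/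
def Zspace (s t : Equiv.Perm Q) (m : ℕ) : Submodule ℂ ((Q → ℂ) × (Q → ℂ)) where
  carrier := {p | (∀ q, p.1 q + p.1 (s q) = 0) ∧
    (∀ q, ∑ j ∈ Finset.range m, p.2 ((t ^ j) q) = 0) ∧
    (∀ q, (p.1 q + p.2 (s q)) + (p.1 (t (s q)) + p.2 (s (t (s q))))
      + (p.1 (t (s (t (s q)))) + p.2 (s (t (s (t (s q)))))) = 0)}
  zero_mem' := by
    refine ⟨fun q => by simp, fun q => by simp, fun q => by simp⟩
  add_mem' := by
    rintro p p' ⟨h1, h2, h3⟩ ⟨h1', h2', h3'⟩
    refine ⟨fun q => ?_, fun q => ?_, fun q => ?_⟩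
    · have := h1 q; have := h1' q
      simp only [Prod.fst_add, Pi.add_apply]; linear_combination h1 q + h1' q
    · simp only [Prod.snd_add, Pi.add_apply, Finset.sum_add_distrib, h2 q, h2' q, add_zero]
    · simp only [Prod.fst_add, Prod.snd_add, Pi.add_apply]; linear_combination h3 q + h3' q
  smul_mem' := by
    rintro c p ⟨h1, h2, h3⟩
    refine ⟨fun q => ?_, fun q => ?_, fun q => ?_⟩
    · simp only [Prod.smul_fst, Pi.smul_apply, smul_eq_mul]; linear_combination c * h1 q
    · simp only [Prod.smul_snd, Pi.smul_apply, smul_eq_mul, ← Finset.mul_sum, h2 q, mul_zero]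
    · simp only [Prod.smul_fst, Prod.smul_snd, Pi.smul_apply, smul_eq_mul]
      linear_combination c * h3 q

theorem mem_Zspace (s t : Equiv.Perm Q) (m : ℕ) (p : (Q → ℂ) × (Q → ℂ)) :
    p ∈ Zspace s t m ↔ (∀ q, p.1 q + p.1 (s q) = 0) ∧
    (∀ q, ∑ j ∈ Finset.range m, p.2 ((t ^ j) q) = 0) ∧
    (∀ q, (p.1 q + p.2 (s q)) + (p.1 (t (s q)) + p.2 (s (t (s q))))
      + (p.1 (t (s (t (s q)))) + p.2 (s (t (s (t (s q)))))) = 0) := Iff.rfl

/-- The coboundary attached to `v : Q → ℂ`. -/
def cobdry (s t : Equiv.Perm Q) (v : Q → ℂ) : (Q → ℂ) × (Q → ℂ) :=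
  (fun q => v (s q) - v q, fun q => v (t q) - v q)

/-- Coboundaries satisfy the cocycle relations. -/
theorem cobdry_mem_Zspace (s t : Equiv.Perm Q) (m : ℕ) (hs : s * s = 1) (hu : (t * s) ^ 3 = 1)
    (ht : t ^ m = 1) (v : Q → ℂ) : cobdry s t v ∈ Zspace s t m := by
  refine ⟨fun q => ?_, fun q => ?_, fun q => ?_⟩
  · have h : s (s q) = q := by
      have := congrArg (fun σ : Equiv.Perm Q => σ q) hs
      simpa using this
    simp only [cobdry, h]; ring
  · simp only [cobdry]
    have hsum : ∀ n : ℕ, ∑ j ∈ Finset.range n, (v (t ((t ^ j) q)) - v ((t ^ j) q))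
        = v ((t ^ n) q) - v q := by
      intro n
      induction n with
      | zero => simp
      | succ n ih =>
        rw [Finset.sum_range_succ, ih, pow_succ']
        simp only [Equiv.Perm.coe_mul, Function.comp_apply]
        ring
    rw [hsum m, ht]; simp
  · have h : t (s (t (s (t (s q))))) = q := by
      have := congrArg (fun σ : Equiv.Perm Q => σ q) hu
      simpa [pow_succ, Equiv.Perm.mul_apply] using this
    simp only [cobdry, h]; ring

end Fermat.Agent.S21L
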