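/-
S21 (Eichler–Shimura), part D3a: the set `Q = SL(2,ℤ) ⧸ Γ₀(N)` and the basic facts about the
action of `S`, `T` on it.  No sorries here.
-/
import Mathlib
import Fermat.Prelude.Def_ModularCurve_PeriodHomPair
import Fermat.Agent.S21L.PermDefs

set_option autoImplicit false

noncomputable section

open CongruenceSubgroup ModularCurve ModularCurve.Period
open scoped MatrixGroups

namespace Fermat.Agent.S21L

/-- `Q = SL(2,ℤ) ⧸ Γ₀(N)` (left cosets), with the left action of `SL(2,ℤ)`. -/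
abbrev QN (N : ℕ) : Type := SL(2, ℤ) ⧸ Gamma0 N

/-- The permutation `q ↦ S⁻¹ • q` of `Q`. -/
def sPerm (N : ℕ) : Equiv.Perm (QN N) := MulAction.toPerm (ModularGroup.S⁻¹ : SL(2, ℤ))

/-- The permutation `q ↦ T⁻¹ • q` of `Q`. -/
def tPerm (N : ℕ) : Equiv.Perm (QN N) := MulAction.toPerm (ModularGroup.T⁻¹ : SL(2, ℤ))

theorem sPerm_apply (N : ℕ) (q : QN N) : sPerm N q = (ModularGroup.S⁻¹ : SL(2, ℤ)) • q := rfl

theorem tPerm_apply (N : ℕ) (q : QN N) : tPerm N q = (ModularGroup.T⁻¹ : SL(2, ℤ)) • q := rfl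

/-- `-1` acts trivially on `Q`. -/
theorem qAction_neg_one_smul (N : ℕ) (q : QN N) : (-1 : SL(2, ℤ)) • q = q := by
  induction q using QuotientGroup.induction_on with
  | H x =>
    show (QuotientGroup.mk ((-1 : SL(2, ℤ)) * x) : QN N) = QuotientGroup.mk x
    rw [QuotientGroup.eq, Gamma0_mem]
    have h : (-1 : SL(2, ℤ)) * x = x * (-1) := by simp
    have : ((-1 : SL(2, ℤ)) * x)⁻¹ * x = -1 := by
      rw [h, mul_inv_rev, mul_assoc, inv_mul_cancel, mul_one]
      apply Subtype.ext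
      simp
    rw [this]
    simp

theorem qAction_S_mul_S : (ModularGroup.S * ModularGroup.S : SL(2, ℤ)) = -1 := by
  apply Subtype.ext
  rw [Matrix.SpecialLinearGroup.coe_mul, ModularGroup.coe_S, Matrix.SpecialLinearGroup.coe_neg,
    Matrix.SpecialLinearGroup.coe_one]
  ext i j
  fin_cases i <;> fin_cases j <;> simp [Matrix.mul_apply, Fin.sum_univ_two]

theorem qAction_ST_cube :
    ((ModularGroup.S * ModularGroup.T) ^ 3 : SL(2, ℤ)) = -1 := by
  apply Subtype.ext
  rw [pow_succ, pow_succ, pow_one]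
  simp only [Matrix.SpecialLinearGroup.coe_mul, ModularGroup.coe_S, ModularGroup.coe_T,
    Matrix.SpecialLinearGroup.coe_neg, Matrix.SpecialLinearGroup.coe_one]
  ext i j
  fin_cases i <;> fin_cases j <;> simp [Matrix.mul_apply, Fin.sum_univ_two]

/-- `T ^ N` acts trivially on `Q`. -/
theorem qAction_T_pow_smul (N : ℕ) (q : QN N) : (ModularGroup.T ^ N : SL(2, ℤ)) • q = q := by
  induction q using QuotientGroup.induction_on with
  | H x =>
    show (QuotientGroup.mk ((ModularGroup.T ^ N : SL(2, ℤ)) * x) : QN N) = QuotientGroup.mk x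
    rw [eq_comm, QuotientGroup.eq, Gamma0_mem]
    have h : ((x⁻¹ * (ModularGroup.T ^ N * x) : SL(2, ℤ)) : Matrix (Fin 2) (Fin 2) ℤ) 1 0
        = -(N : ℤ) * (x.1 1 0) ^ 2 := by
      have hT : ((ModularGroup.T ^ N : SL(2, ℤ)) : Matrix (Fin 2) (Fin 2) ℤ) = !![1, (N : ℤ); 0, 1] := by
        have := ModularGroup.coe_T_zpow (N : ℤ)
        rw [zpow_natCast] at this
        exact this
      rw [Matrix.SpecialLinearGroup.coe_mul, Matrix.SpecialLinearGroup.coe_mul, hT,
        Matrix.SpecialLinearGroup.coe_inv, Matrix.adjugate_fin_two]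
      simp [Matrix.mul_apply, Fin.sum_univ_two, Matrix.vecMul, dotProduct]
      ring
    rw [h]
    simp

theorem sPerm_mul_self (N : ℕ) : sPerm N * sPerm N = 1 := by
  ext q
  rw [Equiv.Perm.mul_apply, sPerm_apply, sPerm_apply, ← mul_smul, ← mul_inv_rev, qAction_S_mul_S,
    Equiv.Perm.one_apply]
  have h := qAction_neg_one_smul N q
  rw [inv_smul_eq_iff, h]

theorem qAction_uPerm_apply (N : ℕ) (q : QN N) :
    (tPerm N * sPerm N) q = ((ModularGroup.S * ModularGroup.T : SL(2, ℤ)))⁻¹ • q := by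
  rw [Equiv.Perm.mul_apply, sPerm_apply, tPerm_apply, ← mul_smul, ← mul_inv_rev]

theorem tPerm_mul_sPerm_pow (N : ℕ) : (tPerm N * sPerm N) ^ 3 = 1 := by
  ext q
  have h : ∀ n : ℕ, ((tPerm N * sPerm N) ^ n) q
      = (((ModularGroup.S * ModularGroup.T : SL(2, ℤ)))⁻¹ ^ n) • q := by
    intro n
    induction n with
    | zero => simp
    | succ n ih =>
      rw [pow_succ', Equiv.Perm.mul_apply, ih, qAction_uPerm_apply, ← mul_smul, ← pow_succ']
  rw [h 3, inv_pow, qAction_ST_cube, Equiv.Perm.one_apply, inv_smul_eq_iff,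
    qAction_neg_one_smul]

theorem qAction_tPerm_pow_apply (N : ℕ) (n : ℕ) (q : QN N) :
    (tPerm N ^ n) q = ((ModularGroup.T : SL(2, ℤ))⁻¹ ^ n) • q := by
  induction n with
  | zero => simp
  | succ n ih =>
    rw [pow_succ', Equiv.Perm.mul_apply, ih, tPerm_apply, ← mul_smul, ← pow_succ']

theorem qAction_tPerm_zpow_apply (N : ℕ) (k : ℤ) (q : QN N) :
    (tPerm N ^ k) q = ((ModularGroup.T : SL(2, ℤ)) ^ (-k)) • q := by
  have hinv : ∀ (n : ℕ) (q : QN N), ((tPerm N ^ n)⁻¹) q = ((ModularGroup.T : SL(2, ℤ)) ^ n) • q := by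
    intro n q
    rw [Equiv.Perm.inv_def, Equiv.symm_apply_eq, qAction_tPerm_pow_apply, ← mul_smul, inv_pow,
      inv_mul_cancel, one_smul]
  obtain ⟨n, rfl | rfl⟩ := Int.eq_nat_or_neg k
  · rw [zpow_natCast, qAction_tPerm_pow_apply, zpow_neg, zpow_natCast, inv_pow]
  · rw [zpow_neg, zpow_natCast, neg_neg, zpow_natCast, hinv]

theorem tPerm_pow (N : ℕ) : tPerm N ^ N = 1 := by
  ext q
  rw [qAction_tPerm_pow_apply, Equiv.Perm.one_apply, inv_pow, inv_smul_eq_iff, qAction_T_pow_smul]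

/-- `S`, `T` generate `SL(2,ℤ)`, which is transitive on `Q`. -/
theorem const_of_sPerm_tPerm (N : ℕ) (v : QN N → ℂ) (hs : ∀ q, v (sPerm N q) = v q)
    (ht : ∀ q, v (tPerm N q) = v q) : ∀ q q', v q = v q' := by
  have hS : ∀ q, v ((ModularGroup.S : SL(2, ℤ)) • q) = v q := fun q => by
    have := hs (ModularGroup.S • q)
    rw [sPerm_apply, inv_smul_smul] at this
    exact this.symm
  have hT : ∀ q, v ((ModularGroup.T : SL(2, ℤ)) • q) = v q := fun q => by
    have := ht (ModularGroup.T • q)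
    rw [tPerm_apply, inv_smul_smul] at this
    exact this.symm
  let G : Subgroup SL(2, ℤ) :=
    { carrier := {g | ∀ q, v (g • q) = v q}
      one_mem' := fun q => by rw [one_smul]
      mul_mem' := fun {a b} ha hb q => by rw [mul_smul, ha, hb]
      inv_mem' := fun {a} ha q => by
        have := ha (a⁻¹ • q)
        rw [smul_inv_smul] at this
        exact this.symm }
  have hG : G = ⊤ := by
    rw [eq_top_iff, ← SpecialLinearGroup.SL2Z_generators, Subgroup.closure_le]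
    rintro g (rfl | rfl)
    · exact hS
    · exact hT
  intro q q'
  obtain ⟨g, rfl⟩ := MulAction.exists_smul_eq SL(2, ℤ) q' q
  have : g ∈ G := hG ▸ Subgroup.mem_top g
  exact this q'

theorem fixed_sPerm_iff (N : ℕ) (q : QN N) :
    sPerm N q = q ↔ (ModularGroup.S : SL(2, ℤ)) • q = q := by
  rw [sPerm_apply, inv_smul_eq_iff, eq_comm]

theorem fixed_uPerm_iff (N : ℕ) (q : QN N) :
    (tPerm N * sPerm N) q = q ↔ (ModularGroup.S * ModularGroup.T : SL(2, ℤ)) • q = q := by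
  rw [qAction_uPerm_apply, inv_smul_eq_iff, eq_comm]

theorem orbitRel_T_iff (N : ℕ) (q q' : QN N) :
    MulAction.orbitRel (Subgroup.zpowers (ModularGroup.T : SL(2, ℤ))) (QN N) q q'
      ↔ ∃ k : ℤ, (tPerm N ^ k) q = q' := by
  rw [MulAction.orbitRel_apply, MulAction.mem_orbit_iff]
  constructor
  · rintro ⟨⟨g, hg⟩, rfl⟩
    obtain ⟨k, rfl⟩ := Subgroup.mem_zpowers_iff.mp hg
    refine ⟨k, ?_⟩
    rw [qAction_tPerm_zpow_apply]
    show (ModularGroup.T ^ (-k) : SL(2, ℤ)) • ((ModularGroup.T ^ k : SL(2, ℤ)) • q') = q'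
    rw [← mul_smul, ← zpow_add, neg_add_cancel, zpow_zero, one_smul]
  · rintro ⟨k, rfl⟩
    refine ⟨⟨ModularGroup.T ^ k, Subgroup.zpow_mem_zpowers _ k⟩, ?_⟩
    rw [qAction_tPerm_zpow_apply]
    show (ModularGroup.T ^ k : SL(2, ℤ)) • ((ModularGroup.T ^ (-k) : SL(2, ℤ)) • q) = q
    rw [← mul_smul, ← zpow_add, add_neg_cancel, zpow_zero, one_smul]

end Fermat.Agent.S21L
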