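/-
S21 (Eichler–Shimura), part D3b: the cocycle map from parabolic homomorphisms of `Γ₀(N)` to pairs
of functions on `Q = SL(2,ℤ) ⧸ Γ₀(N)`.
-/
import Mathlib
import Fermat.Prelude.Def_ModularCurve_PeriodHomPair
import Fermat.Agent.S21L.PermDefs
import Fermat.Agent.S21L.QAction

set_option autoImplicit false

noncomputable section

open CongruenceSubgroup ModularCurve ModularCurve.Period
open scoped MatrixGroups

namespace Fermat.Agent.S21L

open Classical in
/-- A set-theoretic section of `SL(2,ℤ) → Q`, normalised at the base point. -/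
def cocycleSec (N : ℕ) (q : QN N) : SL(2, ℤ) :=
  if q = (QuotientGroup.mk 1 : QN N) then 1 else Quotient.out q

theorem cocycleSec_mk (N : ℕ) (q : QN N) :
    (QuotientGroup.mk (cocycleSec N q) : QN N) = q := by
  unfold cocycleSec
  split_ifs with h
  · exact h.symm
  · exact QuotientGroup.out_eq' q

theorem cocycleSec_one (N : ℕ) : cocycleSec N (QuotientGroup.mk 1 : QN N) = 1 := by
  simp [cocycleSec]

/-- The `Γ₀(N)`-valued cocycle attached to the section. -/
def cocycleEta (N : ℕ) (g : SL(2, ℤ)) (q : QN N) : SL(2, ℤ) :=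
  (cocycleSec N q)⁻¹ * g * cocycleSec N (g⁻¹ • q)

theorem cocycleEta_mem (N : ℕ) (g : SL(2, ℤ)) (q : QN N) : cocycleEta N g q ∈ Gamma0 N := by
  unfold cocycleEta
  rw [mul_assoc, ← QuotientGroup.eq, cocycleSec_mk, ← smul_eq_mul,
    ← MulAction.Quotient.smul_mk, cocycleSec_mk, smul_inv_smul]

theorem cocycleEta_mul (N : ℕ) (g g' : SL(2, ℤ)) (q : QN N) :
    cocycleEta N (g * g') q = cocycleEta N g q * cocycleEta N g' (g⁻¹ • q) := by
  unfold cocycleEta
  rw [mul_inv_rev, mul_smul]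
  group

/-- The scalar cocycle attached to a homomorphism `φ`. -/
def cocycleC (N : ℕ) (φ : Additive (Gamma0 N) →+ ℂ) (g : SL(2, ℤ)) (q : QN N) : ℂ :=
  φ (Additive.ofMul ⟨cocycleEta N g q, cocycleEta_mem N g q⟩)

theorem cocycleC_mul (N : ℕ) (φ : Additive (Gamma0 N) →+ ℂ) (g g' : SL(2, ℤ)) (q : QN N) :
    cocycleC N φ (g * g') q = cocycleC N φ g q + cocycleC N φ g' (g⁻¹ • q) := by
  unfold cocycleC
  rw [← map_add, ← ofMul_mul]
  congr 2
  exact Subtype.ext (cocycleEta_mul N g g' q)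

theorem cocycleC_one (N : ℕ) (φ : Additive (Gamma0 N) →+ ℂ) (q : QN N) :
    cocycleC N φ 1 q = 0 := by
  have h := cocycleC_mul N φ 1 1 q
  simpa using h

theorem cocycleC_inv (N : ℕ) (φ : Additive (Gamma0 N) →+ ℂ) (g : SL(2, ℤ)) (q : QN N) :
    cocycleC N φ g⁻¹ q = - cocycleC N φ g (g • q) := by
  have h := cocycleC_mul N φ g g⁻¹ (g • q)
  rw [mul_inv_cancel, cocycleC_one, inv_smul_smul] at h
  linear_combination -h

/-- If `g` fixes `q` and has trace `±2`, a parabolic homomorphism kills the cocycle value. -/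
theorem cocycleC_eq_zero_of_fixed (N : ℕ) (φ : Additive (Gamma0 N) →+ ℂ)
    (hφ : IsParabolicHom (Gamma0 N) φ) (g : SL(2, ℤ)) (q : QN N) (hq : g⁻¹ • q = q)
    (htr : (g : Matrix (Fin 2) (Fin 2) ℤ).trace ^ 2 = 4) : cocycleC N φ g q = 0 := by
  unfold cocycleC
  apply hφ
  show ((cocycleEta N g q : SL(2, ℤ)) : Matrix (Fin 2) (Fin 2) ℤ).trace ^ 2 = 4
  unfold cocycleEta
  rw [hq, Matrix.SpecialLinearGroup.coe_mul, Matrix.trace_mul_comm,
    ← Matrix.SpecialLinearGroup.coe_mul, mul_inv_cancel_left]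
  exact htr

theorem cocycle_neg_one_mem (N : ℕ) : (-1 : SL(2, ℤ)) ∈ Gamma0 N := by
  rw [Gamma0_mem]
  simp

theorem cocycle_neg_one_smul (N : ℕ) (q : QN N) : (-1 : SL(2, ℤ))⁻¹ • q = q := by
  have h1 : (-1 : SL(2, ℤ))⁻¹ = -1 := by
    rw [inv_eq_iff_mul_eq_one]
    simp
  rw [h1]
  induction q using QuotientGroup.induction_on with
  | H x =>
    rw [MulAction.Quotient.smul_mk, smul_eq_mul]
    have h2 : (-1 : SL(2, ℤ)) * x = x * (-1) := by simp
    rw [h2]
    exact QuotientGroup.mk_mul_of_mem x (cocycle_neg_one_mem N)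

theorem cocycleC_neg_one (N : ℕ) (φ : Additive (Gamma0 N) →+ ℂ)
    (hφ : IsParabolicHom (Gamma0 N) φ) (q : QN N) : cocycleC N φ (-1) q = 0 := by
  apply cocycleC_eq_zero_of_fixed N φ hφ _ q (cocycle_neg_one_smul N q)
  simp

theorem cocycle_tPerm_pow_apply (N : ℕ) (n : ℕ) (q : QN N) :
    (tPerm N ^ n) q = ((ModularGroup.T : SL(2, ℤ)) ^ n)⁻¹ • q := by
  induction n generalizing q with
  | zero => simp
  | succ n ih =>
    rw [pow_succ, Equiv.Perm.mul_apply, ih, tPerm_apply, ← mul_smul, ← mul_inv_rev, ← pow_succ']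

theorem cocycleC_T_sum (N : ℕ) (φ : Additive (Gamma0 N) →+ ℂ) (n : ℕ) (q : QN N) :
    ∑ j ∈ Finset.range n, cocycleC N φ ModularGroup.T ((tPerm N ^ j) q)
      = cocycleC N φ (ModularGroup.T ^ n) q := by
  induction n with
  | zero => simp [cocycleC_one]
  | succ n ih =>
    rw [Finset.sum_range_succ, ih, pow_succ, cocycleC_mul, cocycle_tPerm_pow_apply]

theorem cocycle_T_pow_smul (N : ℕ) (q : QN N) :
    ((ModularGroup.T : SL(2, ℤ)) ^ N)⁻¹ • q = q := by
  induction q using QuotientGroup.induction_on with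
  | H x =>
    rw [MulAction.Quotient.smul_mk, smul_eq_mul, QuotientGroup.eq, mul_inv_rev, inv_inv]
    have h1 : (ModularGroup.T : SL(2, ℤ)) ^ N ∈ Gamma N := by
      have := ModularGroup_T_pow_mem_Gamma (N : ℤ) (N : ℤ) dvd_rfl
      rwa [zpow_natCast] at this
    have h2 : x⁻¹ * (ModularGroup.T : SL(2, ℤ)) ^ N * x⁻¹⁻¹ ∈ Gamma N :=
      (Gamma_normal N).conj_mem _ h1 x⁻¹
    rw [inv_inv] at h2
    rw [Gamma0_mem]
    exact (Gamma_mem.mp h2).2.2.1

theorem cocycle_U_cube :
    (ModularGroup.S * ModularGroup.T) * (ModularGroup.S * ModularGroup.T)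
      * (ModularGroup.S * ModularGroup.T) = (-1 : SL(2, ℤ)) := by
  ext i j
  fin_cases i <;> fin_cases j <;>
    simp [ModularGroup.coe_S, ModularGroup.coe_T, Matrix.mul_apply, Fin.sum_univ_two]

theorem cocycle_S_sq : ModularGroup.S * ModularGroup.S = (-1 : SL(2, ℤ)) := by
  ext i j
  fin_cases i <;> fin_cases j <;>
    simp [ModularGroup.coe_S, Matrix.mul_apply, Fin.sum_univ_two]

/-- The cocycle map. -/
def cocycleMap (N : ℕ) :
    parabolicHoms ℂ (Gamma0 N) ℂ →ₗ[ℂ] ((QN N → ℂ) × (QN N → ℂ)) where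
  toFun φ := (cocycleC N φ.1 ModularGroup.S, cocycleC N φ.1 ModularGroup.T)
  map_add' := by
    intro φ ψ
    rfl
  map_smul' := by
    intro c φ
    rfl

theorem cocycleMap_mem (N : ℕ) (φ : parabolicHoms ℂ (Gamma0 N) ℂ) :
    cocycleMap N φ ∈ Zspace (sPerm N) (tPerm N) N := by
  obtain ⟨φ, hφ⟩ := φ
  have hφ' : IsParabolicHom (Gamma0 N) φ := hφ
  rw [mem_Zspace]
  refine ⟨fun q => ?_, fun q => ?_, fun q => ?_⟩
  · show cocycleC N φ ModularGroup.S q + cocycleC N φ ModularGroup.S (sPerm N q) = 0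
    rw [sPerm_apply, ← cocycleC_mul, cocycle_S_sq]
    exact cocycleC_neg_one N φ hφ' q
  · show ∑ j ∈ Finset.range N, cocycleC N φ ModularGroup.T ((tPerm N ^ j) q) = 0
    rw [cocycleC_T_sum]
    apply cocycleC_eq_zero_of_fixed N φ hφ'
    · exact cocycle_T_pow_smul N q
    · rw [← zpow_natCast, ModularGroup.coe_T_zpow]
      simp [Matrix.trace_fin_two]
  · show (cocycleC N φ ModularGroup.S q + cocycleC N φ ModularGroup.T (sPerm N q))
      + (cocycleC N φ ModularGroup.S (tPerm N (sPerm N q))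
        + cocycleC N φ ModularGroup.T (sPerm N (tPerm N (sPerm N q))))
      + (cocycleC N φ ModularGroup.S (tPerm N (sPerm N (tPerm N (sPerm N q))))
        + cocycleC N φ ModularGroup.T (sPerm N (tPerm N (sPerm N (tPerm N (sPerm N q)))))) = 0
    have hU : ∀ q : QN N, tPerm N (sPerm N q)
        = (ModularGroup.S * ModularGroup.T : SL(2, ℤ))⁻¹ • q := by
      intro q
      rw [tPerm_apply, sPerm_apply, ← mul_smul, ← mul_inv_rev]
    have hST : ∀ q : QN N, cocycleC N φ ModularGroup.S q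
        + cocycleC N φ ModularGroup.T (sPerm N q)
        = cocycleC N φ (ModularGroup.S * ModularGroup.T) q := by
      intro q
      rw [sPerm_apply, ← cocycleC_mul]
    rw [hST, hST, hST, hU, hU, ← cocycleC_mul, ← mul_smul, ← mul_inv_rev, ← cocycleC_mul,
      cocycle_U_cube]
    exact cocycleC_neg_one N φ hφ' q

theorem cocycleMap_injective (N : ℕ) (φ : parabolicHoms ℂ (Gamma0 N) ℂ) (v : QN N → ℂ)
    (h : cocycleMap N φ = cobdry (sPerm N) (tPerm N) v) : φ = 0 := by
  obtain ⟨φ, hφ⟩ := φ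
  have hS : ∀ q, cocycleC N φ ModularGroup.S q = v ((ModularGroup.S : SL(2, ℤ))⁻¹ • q) - v q :=
    fun q => congrFun (congrArg Prod.fst h) q
  have hT : ∀ q, cocycleC N φ ModularGroup.T q = v ((ModularGroup.T : SL(2, ℤ))⁻¹ • q) - v q :=
    fun q => congrFun (congrArg Prod.snd h) q
  have hall : ∀ g : SL(2, ℤ), ∀ q, cocycleC N φ g q = v (g⁻¹ • q) - v q := by
    intro g
    have hg : g ∈ Subgroup.closure ({ModularGroup.S, ModularGroup.T} : Set SL(2, ℤ)) := by
      rw [SpecialLinearGroup.SL2Z_generators]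
      exact Subgroup.mem_top g
    induction hg using Subgroup.closure_induction with
    | mem x hx =>
      rcases hx with rfl | rfl
      · exact hS
      · exact hT
    | one =>
      intro q
      simp [cocycleC_one]
    | mul x y _ _ hx hy =>
      intro q
      rw [cocycleC_mul, hx, hy, mul_inv_rev, mul_smul]
      ring
    | inv x _ hx =>
      intro q
      rw [cocycleC_inv, hx, inv_smul_smul, inv_inv]
      ring
  apply Subtype.ext
  show φ = 0
  apply AddMonoidHom.ext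
  intro a
  obtain ⟨h0, rfl⟩ : ∃ h0 : Gamma0 N, Additive.ofMul h0 = a := ⟨Additive.toMul a, rfl⟩
  have hfix : (h0 : SL(2, ℤ))⁻¹ • (QuotientGroup.mk 1 : QN N) = QuotientGroup.mk 1 := by
    rw [MulAction.Quotient.smul_mk, smul_eq_mul, mul_one, QuotientGroup.eq, inv_inv, mul_one]
    exact h0.2
  have hc := hall (h0 : SL(2, ℤ)) (QuotientGroup.mk 1 : QN N)
  rw [hfix, sub_self] at hc
  have heta : cocycleEta N (h0 : SL(2, ℤ)) (QuotientGroup.mk 1 : QN N) = h0 := by
    unfold cocycleEta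
    rw [hfix, cocycleSec_one]
    simp
  have : cocycleC N φ (h0 : SL(2, ℤ)) (QuotientGroup.mk 1 : QN N) = φ (Additive.ofMul h0) := by
    unfold cocycleC
    congr 2
    exact Subtype.ext heta
  rw [← this, hc]
  rfl

/-- **The cocycle map.**  There is a linear map `Φ` from parabolic homomorphisms to pairs of
functions on `Q` whose image satisfies the cocycle relations and which is injective modulo
coboundaries. -/
theorem exists_cocycle_map (N : ℕ) [NeZero N] :
    ∃ Φ : parabolicHoms ℂ (Gamma0 N) ℂ →ₗ[ℂ] ((QN N → ℂ) × (QN N → ℂ)),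
      (∀ φ, Φ φ ∈ Zspace (sPerm N) (tPerm N) N) ∧
      (∀ φ (v : QN N → ℂ), Φ φ = cobdry (sPerm N) (tPerm N) v → φ = 0) :=
  ⟨cocycleMap N, cocycleMap_mem N, cocycleMap_injective N⟩

end Fermat.Agent.S21L
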