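/-
S21 (Eichler–Shimura), part D1: dimension of the space of functions fixed by a permutation.
-/
import Mathlib
import Fermat.Agent.S21L.PermDefs

set_option autoImplicit false

namespace Fermat.Agent.S21L

variable {Q : Type*}

/-- The operator `v ↦ v ∘ σ` on functions. -/
noncomputable def permFixed_op (σ : Equiv.Perm Q) : (Q → ℂ) →ₗ[ℂ] (Q → ℂ) :=
  LinearMap.funLeft ℂ ℂ σ

theorem permFixed_op_apply (σ : Equiv.Perm Q) (v : Q → ℂ) (q : Q) :
    permFixed_op σ v q = v (σ q) := rfl

/-- The trace of `v ↦ v ∘ σ` is the number of fixed points of `σ`. -/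
theorem permFixed_trace_op [Finite Q] (σ : Equiv.Perm Q) :
    LinearMap.trace ℂ (Q → ℂ) (permFixed_op σ) = (Nat.card {q : Q // σ q = q} : ℂ) := by
  classical
  have := Fintype.ofFinite Q
  rw [LinearMap.trace_eq_matrix_trace ℂ (Pi.basisFun ℂ Q), Matrix.trace]
  have h : ∀ i : Q, Matrix.diag (LinearMap.toMatrix (Pi.basisFun ℂ Q) (Pi.basisFun ℂ Q)
      (permFixed_op σ)) i = if σ i = i then 1 else 0 := by
    intro i
    rw [Matrix.diag_apply, LinearMap.toMatrix_apply, Pi.basisFun_apply, Pi.basisFun_repr,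
      permFixed_op_apply, Pi.single_apply]
  rw [Finset.sum_congr rfl (fun i _ => h i), Finset.sum_boole, Nat.card_eq_fintype_card,
    Fintype.card_subtype]

/-- A function fixed by `t` is fixed by all natural powers of `t`. -/
theorem permFixed_pow_apply (t : Equiv.Perm Q) (v : Q → ℂ) (hv : ∀ q, v (t q) = v q)
    (k : ℕ) (q : Q) : v ((t ^ k) q) = v q := by
  induction k with
  | zero => simp
  | succ n ih => rw [pow_succ', Equiv.Perm.mul_apply, hv, ih]

/-- A function fixed by `t` is fixed by all integer powers of `t`. -/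
theorem permFixed_zpow_apply (t : Equiv.Perm Q) (v : Q → ℂ) (hv : ∀ q, v (t q) = v q)
    (k : ℤ) (q : Q) : v ((t ^ k) q) = v q := by
  have hinv : ∀ q, v (t⁻¹ q) = v q := fun q => by
    have := hv (t⁻¹ q)
    simpa using this.symm
  rcases Int.eq_nat_or_neg k with ⟨n, rfl | rfl⟩
  · rw [zpow_natCast]
    exact permFixed_pow_apply t v hv n q
  · rw [zpow_neg, zpow_natCast, ← inv_pow]
    exact permFixed_pow_apply t⁻¹ v hinv n q

/-- Averaging over the cyclic group generated by `σ` (of order dividing `n`) is a projection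
onto the fixed space, hence `n * dim V^σ = ∑_{j<n} |Fix σ^j|`. -/
theorem permFixed_mul_finrank [Finite Q] (σ : Equiv.Perm Q) (n : ℕ) (hn : n ≠ 0)
    (hσ : σ ^ n = 1) :
    n * Module.finrank ℂ (fixedSpace σ)
      = ∑ j ∈ Finset.range n, Nat.card {q : Q // (σ ^ j) q = q} := by
  classical
  have := Fintype.ofFinite Q
  have hn' : (n : ℂ) ≠ 0 := Nat.cast_ne_zero.mpr hn
  set p : (Q → ℂ) →ₗ[ℂ] (Q → ℂ) :=
    (n : ℂ)⁻¹ • ∑ j ∈ Finset.range n, permFixed_op (σ ^ j) with hp
  have happ : ∀ (v : Q → ℂ) (q : Q),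
      p v q = (n : ℂ)⁻¹ * ∑ j ∈ Finset.range n, v ((σ ^ j) q) := by
    intro v q
    simp only [hp, LinearMap.smul_apply, LinearMap.sum_apply, Pi.smul_apply, Finset.sum_apply,
      permFixed_op_apply, smul_eq_mul]
  have hproj : LinearMap.IsProj (fixedSpace σ) p := by
    refine ⟨fun v => ?_, fun v hv => ?_⟩
    · intro q
      rw [happ, happ]
      congr 1
      have h1 : ∑ j ∈ Finset.range n, v ((σ ^ j) (σ q))
          = ∑ j ∈ Finset.range n, v ((σ ^ (j + 1)) q) := by
        refine Finset.sum_congr rfl (fun j _ => ?_)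
        rw [pow_succ, Equiv.Perm.mul_apply]
      rw [h1]
      have h2 := Finset.sum_range_succ (fun j => v ((σ ^ j) q)) n
      rw [Finset.sum_range_succ' (fun j => v ((σ ^ j) q)) n, hσ, pow_zero] at h2
      exact add_right_cancel h2
    · funext q
      rw [happ]
      have h1 : ∑ j ∈ Finset.range n, v ((σ ^ j) q) = ∑ _j ∈ Finset.range n, v q :=
        Finset.sum_congr rfl (fun j _ => permFixed_pow_apply σ v hv j q)
      rw [h1, Finset.sum_const, Finset.card_range, nsmul_eq_mul, ← mul_assoc,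
        inv_mul_cancel₀ hn', one_mul]
  have htr := hproj.trace
  have htr2 : LinearMap.trace ℂ (Q → ℂ) p
      = (n : ℂ)⁻¹ * ∑ j ∈ Finset.range n, (Nat.card {q : Q // (σ ^ j) q = q} : ℂ) := by
    rw [hp, map_smul, map_sum, smul_eq_mul]
    congr 1
    exact Finset.sum_congr rfl (fun j _ => permFixed_trace_op (σ ^ j))
  rw [htr2] at htr
  have : ((n * Module.finrank ℂ (fixedSpace σ) : ℕ) : ℂ)
      = ((∑ j ∈ Finset.range n, Nat.card {q : Q // (σ ^ j) q = q} : ℕ) : ℂ) := by
    rw [Nat.cast_mul, Nat.cast_sum, ← htr, ← mul_assoc, mul_inv_cancel₀ hn', one_mul]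
  exact_mod_cast this

/-- For an involution `s`, `2 dim V^s = |Q| + |Fix s|`. -/
theorem two_mul_finrank_fixedSpace [Finite Q] (s : Equiv.Perm Q) (hs : s * s = 1) :
    2 * Module.finrank ℂ (fixedSpace s) = Nat.card Q + Nat.card {q : Q // s q = q} := by
  have h := permFixed_mul_finrank s 2 (by norm_num) (by rw [pow_two]; exact hs)
  rw [Finset.sum_range_succ, Finset.sum_range_one] at h
  rw [pow_zero, pow_one] at h
  rw [h]
  congr 1
  exact Nat.card_congr (Equiv.subtypeUnivEquiv (fun _ => rfl))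

/-- For `u` with `u³ = 1`, `3 dim V^u = |Q| + 2 |Fix u|`. -/
theorem three_mul_finrank_fixedSpace [Finite Q] (u : Equiv.Perm Q) (hu : u ^ 3 = 1) :
    3 * Module.finrank ℂ (fixedSpace u) = Nat.card Q + 2 * Nat.card {q : Q // u q = q} := by
  have h := permFixed_mul_finrank u 3 (by norm_num) hu
  rw [Finset.sum_range_succ, Finset.sum_range_succ, Finset.sum_range_one] at h
  rw [pow_zero, pow_one] at h
  have h3 : ∀ q, u (u (u q)) = q := fun q => by
    have := congrArg (fun σ : Equiv.Perm Q => σ q) hu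
    simpa [pow_succ, Equiv.Perm.mul_apply] using this
  have h2 : Nat.card {q : Q // (u ^ 2) q = q} = Nat.card {q : Q // u q = q} := by
    refine Nat.card_congr (Equiv.subtypeEquivRight (fun q => ?_))
    rw [pow_two, Equiv.Perm.mul_apply]
    constructor
    · intro hq
      have := h3 q
      rw [hq] at this
      exact this
    · intro hq
      rw [hq, hq]
  have h1 : Nat.card {q : Q // (1 : Equiv.Perm Q) q = q} = Nat.card Q :=
    Nat.card_congr (Equiv.subtypeUnivEquiv (fun _ => rfl))
  rw [h, h2, h1]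
  ring

/-- `dim V^t` is the number of orbits of `t`. -/
theorem finrank_fixedSpace_eq_card_quotient [Finite Q] (t : Equiv.Perm Q) (r : Setoid Q)
    (hr : ∀ q q', r q q' ↔ ∃ k : ℤ, (t ^ k) q = q') :
    Module.finrank ℂ (fixedSpace t) = Nat.card (Quotient r) := by
  classical
  have : Fintype (Quotient r) := Fintype.ofFinite _
  let e : (Quotient r → ℂ) ≃ₗ[ℂ] fixedSpace t :=
    { toFun := fun g => ⟨fun q => g (Quotient.mk r q), fun q =>
        congrArg g (Quotient.sound ((hr _ _).2 ⟨-1, by simp⟩))⟩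
      map_add' := fun _ _ => rfl
      map_smul' := fun _ _ => rfl
      invFun := fun v => Quotient.lift v.1 (fun a b h => by
        obtain ⟨k, rfl⟩ := (hr a b).1 h
        exact (permFixed_zpow_apply t v.1 v.2 k a).symm)
      left_inv := fun g => funext (fun x => Quotient.inductionOn x (fun _ => rfl))
      right_inv := fun v => Subtype.ext (funext fun _ => rfl) }
  rw [← e.finrank_eq, Module.finrank_fintype_fun_eq_card, Nat.card_eq_fintype_card]

end Fermat.Agent.S21L
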