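/-
S21 (Eichler–Shimura), part D2: the dimension bound for the space of cocycle pairs.
-/
import Mathlib
import Fermat.Agent.S21L.PermDefs

set_option autoImplicit false

namespace Fermat.Agent.S21L

variable {Q : Type*}

/-- Rank–nullity for the restriction of a linear map to a submodule. -/
theorem permModule_finrank_map_add {M M' : Type*} [AddCommGroup M] [Module ℂ M]
    [FiniteDimensional ℂ M] [AddCommGroup M'] [Module ℂ M'] (f : M →ₗ[ℂ] M')
    (p : Submodule ℂ M) :
    Module.finrank ℂ (p.map f) + Module.finrank ℂ (p ⊓ LinearMap.ker f : Submodule ℂ M)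
      = Module.finrank ℂ p := by
  have h := LinearMap.finrank_range_add_finrank_ker (f.domRestrict p)
  rw [LinearMap.range_domRestrict, LinearMap.ker_domRestrict] at h
  rw [← Submodule.map_comap_subtype, Submodule.finrank_map_subtype_eq]
  exact h

/-- Precomposition with a permutation. -/
noncomputable def permModuleA (σ : Equiv.Perm Q) : (Q → ℂ) →ₗ[ℂ] (Q → ℂ) :=
  LinearMap.funLeft ℂ ℂ σ

theorem permModuleA_apply (σ : Equiv.Perm Q) (v : Q → ℂ) (q : Q) :
    permModuleA σ v q = v (σ q) := rfl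

/-- The norm operator `∑ j < n, A (σ ^ j)`. -/
noncomputable def permModuleN (σ : Equiv.Perm Q) (n : ℕ) : (Q → ℂ) →ₗ[ℂ] (Q → ℂ) :=
  ∑ j ∈ Finset.range n, permModuleA (σ ^ j)

theorem permModuleN_apply (σ : Equiv.Perm Q) (n : ℕ) (v : Q → ℂ) (q : Q) :
    permModuleN σ n v q = ∑ j ∈ Finset.range n, v ((σ ^ j) q) := by
  simp [permModuleN, LinearMap.sum_apply, Finset.sum_apply, permModuleA_apply]

theorem permModule_range_N (σ : Equiv.Perm Q) (n : ℕ) (hn : 0 < n) (hσ : σ ^ n = 1) :
    LinearMap.range (permModuleN σ n) = fixedSpace σ := by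
  apply le_antisymm
  · rintro _ ⟨v, rfl⟩
    rw [mem_fixedSpace]
    intro q
    rw [permModuleN_apply, permModuleN_apply]
    have h1 : ∀ j : ℕ, v ((σ ^ j) (σ q)) = v ((σ ^ (j + 1)) q) := by
      intro j
      rw [pow_succ]; rfl
    simp only [h1]
    have h2 := Finset.sum_range_succ (fun j => v ((σ ^ j) q)) n
    have h3 := Finset.sum_range_succ' (fun j => v ((σ ^ j) q)) n
    simp only [hσ, pow_zero, Equiv.Perm.coe_one, id_eq] at h2 h3
    rw [h2] at h3
    exact (add_right_cancel h3).symm
  · intro v hv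
    rw [mem_fixedSpace] at hv
    have h1 : ∀ (j : ℕ) (q : Q), v ((σ ^ j) q) = v q := by
      intro j
      induction j with
      | zero => intro q; simp
      | succ j ih =>
        intro q
        rw [pow_succ, Equiv.Perm.mul_apply, ih, hv]
    refine ⟨((n : ℂ)⁻¹) • v, ?_⟩
    funext q
    rw [permModuleN_apply]
    simp only [Pi.smul_apply, smul_eq_mul, h1, Finset.sum_const, Finset.card_range, nsmul_eq_mul]
    have hn' : (n : ℂ) ≠ 0 := by exact_mod_cast hn.ne'
    field_simp

theorem permModule_finrank_ker_N [Finite Q] (σ : Equiv.Perm Q) (n : ℕ) (hn : 0 < n)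
    (hσ : σ ^ n = 1) :
    Module.finrank ℂ (LinearMap.ker (permModuleN σ n)) + Module.finrank ℂ (fixedSpace σ)
      = Nat.card Q := by
  have : Fintype Q := Fintype.ofFinite Q
  have h := LinearMap.finrank_range_add_finrank_ker (permModuleN σ n)
  rw [permModule_range_N σ n hn hσ, Module.finrank_pi, ← Nat.card_eq_fintype_card] at h
  omega


/-- `g` is the transpose of `f` with respect to the standard bilinear pairing. -/
def permModuleAdj [Fintype Q] (f g : (Q → ℂ) →ₗ[ℂ] (Q → ℂ)) : Prop :=
  ∀ v w : Q → ℂ, ∑ q, f v q * w q = ∑ q, v q * g w q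

theorem permModuleAdj_finrank [Fintype Q] {f g : (Q → ℂ) →ₗ[ℂ] (Q → ℂ)}
    (h : permModuleAdj f g) :
    Module.finrank ℂ (LinearMap.range f) = Module.finrank ℂ (LinearMap.range g) := by
  classical
  have hM : LinearMap.toMatrix' g = (LinearMap.toMatrix' f).transpose := by
    ext i j
    have := h (Pi.single i 1) (Pi.single j 1)
    simp only [Pi.single_apply, mul_ite, mul_one, mul_zero, ite_mul, one_mul, zero_mul,
      Finset.sum_ite_eq', Finset.mem_univ, if_true] at this
    rw [Matrix.transpose_apply, LinearMap.toMatrix'_apply, LinearMap.toMatrix'_apply]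
    exact this.symm
  have hf : Module.finrank ℂ (LinearMap.range f) = (LinearMap.toMatrix' f).rank := by
    rw [Matrix.rank, ← Matrix.toLin'_apply', Matrix.toLin'_toMatrix']
  have hg : Module.finrank ℂ (LinearMap.range g) = (LinearMap.toMatrix' g).rank := by
    rw [Matrix.rank, ← Matrix.toLin'_apply', Matrix.toLin'_toMatrix']
  rw [hf, hg, hM, Matrix.rank_transpose]

theorem permModuleAdj_A [Fintype Q] (σ : Equiv.Perm Q) :
    permModuleAdj (permModuleA σ) (permModuleA σ⁻¹) := by
  intro v w
  simp only [permModuleA_apply]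
  rw [← Equiv.sum_comp σ (fun q => v q * w (σ⁻¹ q))]
  simp

theorem permModuleAdj_id [Fintype Q] :
    permModuleAdj (LinearMap.id : (Q → ℂ) →ₗ[ℂ] (Q → ℂ)) LinearMap.id := by
  intro v w
  rfl

theorem permModuleAdj_add [Fintype Q] {f g f' g' : (Q → ℂ) →ₗ[ℂ] (Q → ℂ)}
    (h : permModuleAdj f g) (h' : permModuleAdj f' g') : permModuleAdj (f + f') (g + g') := by
  intro v w
  simp only [LinearMap.add_apply, Pi.add_apply, add_mul, mul_add, Finset.sum_add_distrib,
    h v w, h' v w]

theorem permModuleAdj_sub [Fintype Q] {f g f' g' : (Q → ℂ) →ₗ[ℂ] (Q → ℂ)}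
    (h : permModuleAdj f g) (h' : permModuleAdj f' g') : permModuleAdj (f - f') (g - g') := by
  intro v w
  simp only [LinearMap.sub_apply, Pi.sub_apply, sub_mul, mul_sub, Finset.sum_sub_distrib,
    h v w, h' v w]

theorem permModuleAdj_comp [Fintype Q] {f g f' g' : (Q → ℂ) →ₗ[ℂ] (Q → ℂ)}
    (h : permModuleAdj f g) (h' : permModuleAdj f' g') :
    permModuleAdj (f ∘ₗ f') (g' ∘ₗ g) := by
  intro v w
  simp only [LinearMap.comp_apply]
  rw [h (f' v) w, h' v (g w)]

theorem permModuleAdj_N3 [Fintype Q] (u : Equiv.Perm Q) (hu : u ^ 3 = 1) :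
    permModuleAdj (permModuleN u 3) (permModuleN u 3) := by
  have h1 : u⁻¹ = u ^ 2 := inv_eq_of_mul_eq_one_left (by rw [← pow_succ]; exact hu)
  have h2 : (u ^ 2)⁻¹ = u := inv_eq_of_mul_eq_one_left (by rw [← pow_succ']; exact hu)
  have hN : permModuleN u 3 = permModuleA 1 + permModuleA u + permModuleA (u ^ 2) := by
    simp [permModuleN, Finset.sum_range_succ]
  have hN' : permModuleN u 3 = permModuleA 1 + permModuleA (u ^ 2) + permModuleA u := by
    rw [hN, add_right_comm]
  have key := permModuleAdj_add (permModuleAdj_add (permModuleAdj_A (1 : Equiv.Perm Q))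
    (permModuleAdj_A u)) (permModuleAdj_A (u ^ 2))
  rw [inv_one, h1, h2, ← hN, ← hN'] at key
  exact key

/-- `dim Z ≤ 2μ + 1 - dim V^S - dim V^T - dim V^U`. -/
theorem finrank_Zspace_le [Finite Q] [Nonempty Q] (s t : Equiv.Perm Q) (m : ℕ) (hm : 0 < m)
    (hs : s * s = 1) (hu : (t * s) ^ 3 = 1) (ht : t ^ m = 1)
    (htrans : ∀ v : Q → ℂ, (∀ q, v (s q) = v q) → (∀ q, v (t q) = v q) → ∀ q q', v q = v q') :
    Module.finrank ℂ (Zspace s t m) + Module.finrank ℂ (fixedSpace s)
      + Module.finrank ℂ (fixedSpace t) + Module.finrank ℂ (fixedSpace (t * s))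
      ≤ 2 * Nat.card Q + 1 := by
  classical
  have : Fintype Q := Fintype.ofFinite Q
  have hss : ∀ q, s (s q) = q := by
    intro q
    have := congrArg (fun σ : Equiv.Perm Q => σ q) hs
    simpa using this
  have hs2 : s ^ 2 = 1 := by rw [pow_two]; exact hs
  have hsinv : s⁻¹ = s := inv_eq_of_mul_eq_one_left hs
  have kS := permModule_finrank_ker_N s 2 (by norm_num) hs2
  have kT := permModule_finrank_ker_N t m hm ht
  have hNs : ∀ (v : Q → ℂ) (q : Q), permModuleN s 2 v q = v q + v (s q) := by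
    intro v q
    simp [permModuleN_apply, Finset.sum_range_succ]
  have hNu : ∀ (v : Q → ℂ) (q : Q), permModuleN (t * s) 3 v q
      = v q + v (t (s q)) + v (t (s (t (s q)))) := by
    intro v q
    simp [permModuleN_apply, Finset.sum_range_succ, pow_succ]
  -- the ambient submodule and the map `Ψ`
  obtain ⟨K, hKdef⟩ : ∃ K : Submodule ℂ ((Q → ℂ) × (Q → ℂ)),
      K = (LinearMap.ker (permModuleN s 2)).prod (LinearMap.ker (permModuleN t m)) := ⟨_, rfl⟩
  obtain ⟨Ψ, hΨdef⟩ : ∃ Ψ : (Q → ℂ) × (Q → ℂ) →ₗ[ℂ] (Q → ℂ),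
      Ψ = permModuleN (t * s) 3 ∘ₗ (LinearMap.coprod LinearMap.id (permModuleA s)) := ⟨_, rfl⟩
  obtain ⟨D, hDdef⟩ : ∃ D : (Q → ℂ) →ₗ[ℂ] (Q → ℂ), D = LinearMap.id - permModuleA s := ⟨_, rfl⟩
  have hD : ∀ (v : Q → ℂ) (q : Q), D v q = v q - v (s q) := by
    intro v q
    rw [hDdef]; rfl
  have hΨ : ∀ (p : (Q → ℂ) × (Q → ℂ)) (q : Q), Ψ p q
      = (p.1 q + p.2 (s q)) + (p.1 (t (s q)) + p.2 (s (t (s q))))
        + (p.1 (t (s (t (s q)))) + p.2 (s (t (s (t (s q)))))) := by
    intro p q
    rw [hΨdef, LinearMap.comp_apply, hNu]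
    simp [LinearMap.coprod_apply, permModuleA_apply]
  have hK : Module.finrank ℂ K = Module.finrank ℂ (LinearMap.ker (permModuleN s 2))
      + Module.finrank ℂ (LinearMap.ker (permModuleN t m)) := by
    have hK' : K = LinearMap.range ((LinearMap.ker (permModuleN s 2)).subtype.prodMap
        (LinearMap.ker (permModuleN t m)).subtype) := by
      rw [LinearMap.range_prodMap, Submodule.range_subtype, Submodule.range_subtype, hKdef]
    rw [hK', LinearMap.finrank_range_of_inj, Module.finrank_prod]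
    rw [LinearMap.coe_prodMap]
    exact Function.Injective.prodMap (Submodule.injective_subtype _)
      (Submodule.injective_subtype _)
  have hZ : Zspace s t m ≤ K ⊓ LinearMap.ker Ψ := by
    rintro p ⟨h1, h2, h3⟩
    refine ⟨?_, ?_⟩
    · rw [hKdef]
      refine ⟨?_, ?_⟩
      · rw [SetLike.mem_coe, LinearMap.mem_ker]
        funext q
        rw [hNs]; exact h1 q
      · rw [SetLike.mem_coe, LinearMap.mem_ker]
        funext q
        rw [permModuleN_apply]; exact h2 q
    · rw [SetLike.mem_coe, LinearMap.mem_ker]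
      funext q
      rw [hΨ]; exact h3 q
  have h1 := permModule_finrank_map_add Ψ K
  have h2 : LinearMap.range (permModuleN (t * s) 3 ∘ₗ D) ≤ K.map Ψ := by
    rintro _ ⟨v, rfl⟩
    refine ⟨(D v, 0), ?_, ?_⟩
    · rw [hKdef]
      refine ⟨?_, ?_⟩
      · rw [SetLike.mem_coe, LinearMap.mem_ker]
        funext q
        rw [hNs]
        change D v q + D v (s q) = 0
        rw [hD, hD, hss]
        simp
      · exact Submodule.zero_mem _
    · funext q
      rw [hΨ, LinearMap.comp_apply, hNu]
      simp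
  have hAdjD : permModuleAdj D D := by
    have h := permModuleAdj_sub (permModuleAdj_id (Q := Q)) (permModuleAdj_A s)
    rw [hsinv, ← hDdef] at h
    exact h
  have h3 : Module.finrank ℂ (LinearMap.range (permModuleN (t * s) 3 ∘ₗ D))
      = Module.finrank ℂ (LinearMap.range (D ∘ₗ permModuleN (t * s) 3)) :=
    permModuleAdj_finrank (permModuleAdj_comp (permModuleAdj_N3 (t * s) hu) hAdjD)
  have h4 : LinearMap.range (D ∘ₗ permModuleN (t * s) 3) = (fixedSpace (t * s)).map D := by
    rw [LinearMap.range_comp, permModule_range_N (t * s) 3 (by norm_num) hu]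
  have h5 := permModule_finrank_map_add D (fixedSpace (t * s))
  have h6 : Module.finrank ℂ (fixedSpace (t * s) ⊓ LinearMap.ker D : Submodule ℂ (Q → ℂ)) ≤ 1 := by
    obtain ⟨q0⟩ := ‹Nonempty Q›
    have hinj : Function.Injective
        ((LinearMap.proj q0 : (Q → ℂ) →ₗ[ℂ] ℂ) ∘ₗ
          (fixedSpace (t * s) ⊓ LinearMap.ker D : Submodule ℂ (Q → ℂ)).subtype) := by
      rw [injective_iff_map_eq_zero]
      rintro ⟨x, hx⟩ hx0
      have hxu : ∀ q, x ((t * s) q) = x q := (mem_fixedSpace _ _).1 hx.1
      have hxs : D x = 0 := LinearMap.mem_ker.1 hx.2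
      have hxs' : ∀ q, x (s q) = x q := by
        intro q
        have := congrFun hxs q
        rw [hD] at this
        exact (sub_eq_zero.mp this).symm
      have hxt : ∀ q, x (t q) = x q := by
        intro q
        have := hxu (s q)
        rw [Equiv.Perm.mul_apply, hss, hxs'] at this
        exact this
      have hconst := htrans x hxs' hxt
      apply Subtype.ext
      funext q
      change x q = 0
      rw [hconst q q0]
      exact hx0
    have := LinearMap.finrank_le_finrank_of_injective hinj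
    rwa [Module.finrank_self] at this
  have h7 := Submodule.finrank_mono hZ
  have h8 := Submodule.finrank_mono h2
  rw [h4] at h3
  omega

end Fermat.Agent.S21L
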