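/-
S21 (Eichler–Shimura), part D: `dim parabolicHoms ≤ 2 · genus`.
-/
import Mathlib
import Fermat.Prelude.Def_ModularCurve_PeriodHomPair
import Fermat.Prelude.Def_ModularCurve_GenusNumerics
import Fermat.Agent.S21L.PermDefs
import Fermat.Agent.S21L.PermFixed
import Fermat.Agent.S21L.PermModule
import Fermat.Agent.S21L.QAction
import Fermat.Agent.S21L.Cocycle
import Fermat.Agent.X0Count.Main

set_option autoImplicit false

noncomputable section

open CongruenceSubgroup ModularCurve ModularCurve.Period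
open scoped MatrixGroups

namespace Fermat.Agent.S21L

/-- The coboundary map as a linear map. -/
def cobdryLin {Q : Type*} (s t : Equiv.Perm Q) : (Q → ℂ) →ₗ[ℂ] ((Q → ℂ) × (Q → ℂ)) where
  toFun v := cobdry s t v
  map_add' v w := by
    ext q <;> simp [cobdry] <;> ring
  map_smul' c v := by
    ext q <;> simp [cobdry] <;> ring

theorem cobdryLin_apply {Q : Type*} (s t : Equiv.Perm Q) (v : Q → ℂ) :
    cobdryLin s t v = cobdry s t v := rfl

theorem finiteDimensional_parabolicHoms (N : ℕ) [NeZero N] :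
    FiniteDimensional ℂ (parabolicHoms ℂ (Gamma0 N) ℂ) := by
  obtain ⟨Φ, -, hΦ⟩ := exists_cocycle_map N
  refine FiniteDimensional.of_injective Φ ?_
  rw [← LinearMap.ker_eq_bot, LinearMap.ker_eq_bot']
  intro φ hφ
  refine hΦ φ 0 ?_
  rw [hφ]
  ext q <;> simp [cobdry]

theorem finrank_parabolicHoms_add_le (N : ℕ) [NeZero N] :
    Module.finrank ℂ (parabolicHoms ℂ (Gamma0 N) ℂ) + Nat.card (QN N)
      ≤ Module.finrank ℂ (Zspace (sPerm N) (tPerm N) N) + 1 := by
  have hfd := finiteDimensional_parabolicHoms N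
  obtain ⟨Φ, hΦZ, hΦ⟩ := exists_cocycle_map N
  set s := sPerm N
  set t := tPerm N
  let Ψ : (parabolicHoms ℂ (Gamma0 N) ℂ × (QN N → ℂ)) →ₗ[ℂ] ((QN N → ℂ) × (QN N → ℂ)) :=
    Φ.coprod (cobdryLin s t)
  have hrange : LinearMap.range Ψ ≤ Zspace s t N := by
    rintro _ ⟨⟨φ, v⟩, rfl⟩
    show Φ φ + cobdryLin s t v ∈ Zspace s t N
    exact (Zspace s t N).add_mem (hΦZ φ)
      (cobdry_mem_Zspace s t N (sPerm_mul_self N) (tPerm_mul_sPerm_pow N) (tPerm_pow N) v)
  have hker : LinearMap.ker Ψ ≤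
      Submodule.span ℂ {((0 : parabolicHoms ℂ (Gamma0 N) ℂ), (fun _ => (1 : ℂ) : QN N → ℂ))} := by
    rintro ⟨φ, v⟩ hx
    have hx' : Φ φ + cobdryLin s t v = 0 := hx
    have h1 : Φ φ = cobdry s t (-v) := by
      have : Φ φ = -cobdryLin s t v := eq_neg_of_add_eq_zero_left hx'
      rw [this, ← map_neg]; rfl
    have hφ : φ = 0 := hΦ φ (-v) h1
    subst hφ
    have h2 : cobdry s t v = 0 := by
      have : (0 : (QN N → ℂ) × (QN N → ℂ)) + cobdryLin s t v = 0 := by simpa using hx'
      rwa [zero_add] at this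
    have hs : ∀ q, v (s q) = v q := fun q => by
      have := congrFun (congrArg Prod.fst h2) q
      simpa [cobdry, sub_eq_zero] using this
    have ht : ∀ q, v (t q) = v q := fun q => by
      have := congrFun (congrArg Prod.snd h2) q
      simpa [cobdry, sub_eq_zero] using this
    have hc := const_of_sPerm_tPerm N v hs ht
    rw [Submodule.mem_span_singleton]
    refine ⟨v (QuotientGroup.mk 1), ?_⟩
    ext q
    · simp
    · simp [hc q (QuotientGroup.mk 1)]
  have h3 := LinearMap.finrank_range_add_finrank_ker Ψ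
  have h4 : Module.finrank ℂ (LinearMap.range Ψ) ≤ Module.finrank ℂ (Zspace s t N) :=
    Submodule.finrank_mono hrange
  have h5 : Module.finrank ℂ (LinearMap.ker Ψ) ≤ 1 := by
    refine (Submodule.finrank_mono hker).trans ?_
    exact (finrank_span_le_card _).trans (by simp)
  have h6 : Module.finrank ℂ (parabolicHoms ℂ (Gamma0 N) ℂ × (QN N → ℂ))
      = Module.finrank ℂ (parabolicHoms ℂ (Gamma0 N) ℂ) + Nat.card (QN N) := by
    have : Fintype (QN N) := Fintype.ofFinite _
    rw [Module.finrank_prod, Module.finrank_pi_fintype]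
    simp [Nat.card_eq_fintype_card]
  omega

/-- (D) the dimension bound. -/
theorem finrank_parabolicHoms_le (N : ℕ) [NeZero N] :
    (Module.finrank ℂ (parabolicHoms ℂ (Gamma0 N) ℂ) : ℚ) ≤ 2 * genusFormula N := by
  have h1 := finrank_parabolicHoms_add_le N
  have h2 := finrank_Zspace_le (sPerm N) (tPerm N) N (NeZero.pos N) (sPerm_mul_self N)
    (tPerm_mul_sPerm_pow N) (tPerm_pow N) (const_of_sPerm_tPerm N)
  have h3 := two_mul_finrank_fixedSpace (sPerm N) (sPerm_mul_self N)
  have h4 := three_mul_finrank_fixedSpace (tPerm N * sPerm N) (tPerm_mul_sPerm_pow N)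
  have h5 := finrank_fixedSpace_eq_card_quotient (tPerm N)
    (MulAction.orbitRel (Subgroup.zpowers (ModularGroup.T : SL(2, ℤ))) (QN N))
    (orbitRel_T_iff N)
  have e1 : Nat.card {q : QN N // sPerm N q = q} = nuTwo N := by
    rw [← Fermat.Agent.X0Count.card_fixed_S N]
    exact Nat.card_congr (Equiv.subtypeEquivRight (fixed_sPerm_iff N))
  have e2 : Nat.card {q : QN N // (tPerm N * sPerm N) q = q} = nuThree N := by
    rw [← Fermat.Agent.X0Count.card_fixed_ST N]
    exact Nat.card_congr (Equiv.subtypeEquivRight (fixed_uPerm_iff N))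
  have e3 : Nat.card (Quotient (MulAction.orbitRel (Subgroup.zpowers (ModularGroup.T : SL(2, ℤ)))
      (QN N))) = cuspCount N := Fermat.Agent.X0Count.card_orbits_T N
  have e4 : Nat.card (QN N) = dedekindPsi N := Fermat.Agent.X0Count.card_quotient_Gamma0 N
  rw [e1, e4] at h3
  rw [e2, e4] at h4
  rw [e3] at h5
  rw [e4] at h1 h2
  rw [h5] at h2
  have h1' : (Module.finrank ℂ (parabolicHoms ℂ (Gamma0 N) ℂ) : ℚ) + dedekindPsi N
      ≤ Module.finrank ℂ (Zspace (sPerm N) (tPerm N) N) + 1 := by exact_mod_cast h1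
  have h2' : (Module.finrank ℂ (Zspace (sPerm N) (tPerm N) N) : ℚ)
      + Module.finrank ℂ (fixedSpace (sPerm N)) + cuspCount N
      + Module.finrank ℂ (fixedSpace (tPerm N * sPerm N)) ≤ 2 * dedekindPsi N + 1 := by
    exact_mod_cast h2
  have h3' : 2 * (Module.finrank ℂ (fixedSpace (sPerm N)) : ℚ) = dedekindPsi N + nuTwo N := by
    exact_mod_cast h3
  have h4' : 3 * (Module.finrank ℂ (fixedSpace (tPerm N * sPerm N)) : ℚ)
      = dedekindPsi N + 2 * nuThree N := by exact_mod_cast h4
  unfold genusFormula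
  linarith

end Fermat.Agent.S21L
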