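/-
S21 (Eichler–Shimura), part C1: a continuous `Γ₀(N)`-invariant real function on `ℍ` with limits
at all cusps is bounded above, and its supremum is attained in `ℍ` or is the limit at a cusp.
-/
import Mathlib

set_option autoImplicit false

noncomputable section

open UpperHalfPlane CongruenceSubgroup Filter Topology
open scoped MatrixGroups ModularForm

namespace Fermat.Agent.S21L

/-- The truncated closed strip in `ℂ` containing the image of the truncated fundamental domain. -/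
def maxSup_box (A : ℝ) : Set ℂ :=
  {z | |z.re| ≤ (1 : ℝ) / 2 ∧ 1 ≤ Complex.normSq z ∧ 0 ≤ z.im ∧ z.im ≤ A}

theorem maxSup_box_isCompact (A : ℝ) : IsCompact (maxSup_box A) := by
  apply Metric.isCompact_of_isClosed_isBounded
  · have h1 : IsClosed {z : ℂ | |z.re| ≤ (1 : ℝ) / 2} :=
      isClosed_le (continuous_abs.comp Complex.continuous_re) continuous_const
    have h2 : IsClosed {z : ℂ | 1 ≤ Complex.normSq z} :=
      isClosed_le continuous_const Complex.continuous_normSq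
    have h3 : IsClosed {z : ℂ | 0 ≤ z.im} :=
      isClosed_le continuous_const Complex.continuous_im
    have h4 : IsClosed {z : ℂ | z.im ≤ A} :=
      isClosed_le Complex.continuous_im continuous_const
    exact h1.inter (h2.inter (h3.inter h4))
  · rw [Metric.isBounded_iff_subset_closedBall (0 : ℂ)]
    refine ⟨1 / 2 + |A|, fun z hz => ?_⟩
    obtain ⟨h1, -, h3, h4⟩ := hz
    rw [mem_closedBall_zero_iff]
    refine (Complex.norm_le_abs_re_add_abs_im z).trans ?_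
    have : |z.im| ≤ |A| := by
      rw [abs_of_nonneg h3]
      exact h4.trans (le_abs_self A)
    linarith

theorem maxSup_box_subset_range (A : ℝ) :
    maxSup_box A ⊆ Set.range ((↑) : ℍ → ℂ) := by
  rintro z ⟨h1, h2, h3, -⟩
  have hpos : 0 < z.im := by
    rcases h3.lt_or_eq with h | h
    · exact h
    · exfalso
      rw [Complex.normSq_apply, ← h] at h2
      have := abs_le.mp h1
      nlinarith
  exact ⟨⟨z, hpos⟩, rfl⟩

theorem maxSup_truncFd_isCompact (A : ℝ) :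
    IsCompact {w : ℍ | w ∈ ModularGroup.fd ∧ w.im ≤ A} := by
  have h := (UpperHalfPlane.isEmbedding_coe.isInducing.isCompact_preimage_iff
    (maxSup_box_subset_range A)).2 (maxSup_box_isCompact A)
  convert h using 1
  ext w
  simp only [ModularGroup.fd, maxSup_box, Set.mem_ofPred_eq, Set.mem_preimage]
  constructor
  · rintro ⟨⟨h1, h2⟩, h3⟩
    exact ⟨h2, h1, w.im_pos.le, h3⟩
  · rintro ⟨h1, h2, -, h4⟩
    exact ⟨⟨h2, h1⟩, h4⟩

theorem maxSup_continuous_smul (g : SL(2, ℤ)) : Continuous (fun w : ℍ => g • w) :=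
  continuous_const_smul (Matrix.SpecialLinearGroup.mapGL ℝ g : GL (Fin 2) ℝ)

/-- One cusp: a continuous function on `ℍ` with a limit at `i∞` is bounded above on the standard
fundamental domain, and the bound can be chosen to be either a value or the limit. -/
theorem maxSup_one_cusp (ψ : ℍ → ℝ) (hψ : Continuous ψ) (ℓ : ℝ)
    (hlim : Tendsto ψ atImInfty (𝓝 ℓ)) :
    ∃ m : ℝ, (∀ w ∈ ModularGroup.fd, ψ w ≤ m) ∧ ((∃ w₀, ψ w₀ = m) ∨ m = ℓ) := by
  by_cases hall : ∀ w ∈ ModularGroup.fd, ψ w ≤ ℓ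
  · exact ⟨ℓ, hall, Or.inr rfl⟩
  · simp only [not_forall, not_le] at hall
    obtain ⟨w₁, hw₁, hlt⟩ := hall
    have hev : {w : ℍ | ψ w < ψ w₁} ∈ atImInfty := hlim (Iio_mem_nhds hlt)
    obtain ⟨A, hA⟩ := (UpperHalfPlane.atImInfty_mem _).1 hev
    have hC := maxSup_truncFd_isCompact A
    have hw₁C : w₁ ∈ {w : ℍ | w ∈ ModularGroup.fd ∧ w.im ≤ A} := by
      refine ⟨hw₁, ?_⟩
      by_contra hcon
      have hcon' : A ≤ w₁.im := (not_le.mp hcon).le
      have hlt' : ψ w₁ < ψ w₁ := hA w₁ hcon'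
      exact lt_irrefl _ hlt'
    obtain ⟨w₀, -, hmax⟩ := hC.exists_isMaxOn ⟨w₁, hw₁C⟩ hψ.continuousOn
    refine ⟨ψ w₀, fun w hw => ?_, Or.inl ⟨w₀, rfl⟩⟩
    by_cases hwA : w.im ≤ A
    · exact hmax ⟨hw, hwA⟩
    · have hlt' : ψ w < ψ w₁ := hA w (not_le.mp hwA).le
      exact hlt'.le.trans (hmax hw₁C)

theorem exists_max_or_cusp (N : ℕ) [NeZero N] (φ : ℍ → ℝ) (hφ : Continuous φ)
    (hinv : ∀ γ ∈ Gamma0 N, ∀ z : ℍ, φ (γ • z) = φ z)
    (hcusp : ∀ δ : SL(2, ℤ), ∃ ℓ : ℝ, Tendsto (fun w : ℍ => φ (δ • w)) atImInfty (𝓝 ℓ)) :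
    ∃ m : ℝ, (∀ z, φ z ≤ m) ∧
      ((∃ z₀, φ z₀ = m) ∨
        ∃ δ : SL(2, ℤ), Tendsto (fun w : ℍ => φ (δ • w)) atImInfty (𝓝 m)) := by
  classical
  have : Finite (SL(2, ℤ) ⧸ Gamma0 N) := inferInstance
  -- for each coset, the bound on the fundamental domain
  have hstep : ∀ q : SL(2, ℤ) ⧸ Gamma0 N, ∃ m : ℝ,
      (∀ w ∈ ModularGroup.fd, φ ((Quotient.out q)⁻¹ • w) ≤ m) ∧
        ((∃ w₀, φ ((Quotient.out q)⁻¹ • w₀) = m) ∨
          Tendsto (fun w : ℍ => φ ((Quotient.out q)⁻¹ • w)) atImInfty (𝓝 m)) := by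
    intro q
    obtain ⟨ℓ, hℓ⟩ := hcusp (Quotient.out q)⁻¹
    obtain ⟨m, hm1, hm2⟩ := maxSup_one_cusp (fun w : ℍ => φ ((Quotient.out q)⁻¹ • w))
      (hφ.comp (maxSup_continuous_smul _)) ℓ hℓ
    refine ⟨m, hm1, ?_⟩
    rcases hm2 with h | h
    · exact Or.inl h
    · exact Or.inr (h ▸ hℓ)
  choose mq hmq1 hmq2 using hstep
  obtain ⟨q₀, hq₀⟩ := Finite.exists_max mq
  refine ⟨mq q₀, fun z => ?_, ?_⟩
  · obtain ⟨g, hg⟩ := ModularGroup.exists_smul_mem_fd z
    set q : SL(2, ℤ) ⧸ Gamma0 N := QuotientGroup.mk g with hq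
    have hmem : (Quotient.out q)⁻¹ * g ∈ Gamma0 N := by
      rw [← QuotientGroup.eq, QuotientGroup.out_eq']
    have hmem' : ((Quotient.out q)⁻¹ * g)⁻¹ ∈ Gamma0 N := inv_mem hmem
    have hz : z = ((Quotient.out q)⁻¹ * g)⁻¹ • ((Quotient.out q)⁻¹ • (g • z)) := by
      rw [← mul_smul, ← mul_smul]
      simp
    have h1 : φ z = φ ((Quotient.out q)⁻¹ • (g • z)) := by
      conv_lhs => rw [hz]
      exact hinv _ hmem' _
    rw [h1]
    exact (hmq1 q (g • z) hg).trans (hq₀ q)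
  · rcases hmq2 q₀ with ⟨w₀, hw₀⟩ | h
    · exact Or.inl ⟨_, hw₀⟩
    · exact Or.inr ⟨_, h⟩

end Fermat.Agent.S21L
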