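/-
S21 (Eichler–Shimura), part B: period homomorphisms are parabolic.
-/
import Mathlib
import Fermat.Prelude.Def_ModularCurve_PeriodHomPair

set_option autoImplicit false

noncomputable section

open UpperHalfPlane CongruenceSubgroup Filter Topology ModularCurve ModularCurve.Period
open scoped MatrixGroups ModularForm

namespace Fermat.Agent.S21L

/-- Translation by `T^m` preserves the filter `atImInfty`. -/
theorem parabolic_tendsto_T_zpow_smul (m : ℤ) :
    Tendsto (fun w : ℍ => ModularGroup.T ^ m • w) atImInfty atImInfty := by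
  rw [atImInfty, tendsto_comap_iff]
  have h : (UpperHalfPlane.im ∘ fun w : ℍ => ModularGroup.T ^ m • w) = UpperHalfPlane.im := by
    funext w
    simp only [Function.comp_apply]
    exact ModularGroup.im_T_zpow_smul w m
  rw [h]
  exact tendsto_comap

/-- General version of `period_eq_zero_of_conj_T`: only the action of `γ` matters. -/
theorem parabolic_period_eq_zero_of_smul {Γ : Subgroup SL(2, ℤ)} {F : ℍ → ℂ}
    (hF : IsEquivariantPrimitive Γ F) (δ : SL(2, ℤ)) {L : ℂ}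
    (hL : Tendsto (fun w : ℍ => F (δ • w)) atImInfty (𝓝 L)) (m : ℤ) (γ : Γ)
    (hγ : ∀ w : ℍ, (γ : SL(2, ℤ)) • δ • w = δ • (ModularGroup.T ^ m • w)) :
    hF.period γ = 0 := by
  have h1 : Tendsto (fun w : ℍ => F (δ • (ModularGroup.T ^ m • w))) atImInfty (𝓝 L) :=
    hL.comp (parabolic_tendsto_T_zpow_smul m)
  have h2 : Tendsto (fun w : ℍ => F (δ • (ModularGroup.T ^ m • w)) - F (δ • w)) atImInfty
      (𝓝 (L - L)) := h1.sub hL
  have h3 : (fun w : ℍ => F (δ • (ModularGroup.T ^ m • w)) - F (δ • w))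
      = fun _ : ℍ => hF.period γ := by
    funext w
    rw [← hγ w]
    exact hF.sub_eq_period γ (δ • w)
  rw [h3, sub_self] at h2
  exact tendsto_nhds_unique tendsto_const_nhds h2

/-- If `γ = δ T^m δ⁻¹` fixes the cusp `δ • ∞` and `F ∘ δ` has a limit at `i∞`, then the
period of `F` along `γ` vanishes. -/
theorem period_eq_zero_of_conj_T {Γ : Subgroup SL(2, ℤ)} {F : ℍ → ℂ}
    (hF : IsEquivariantPrimitive Γ F) (δ : SL(2, ℤ)) {L : ℂ}
    (hL : Tendsto (fun w : ℍ => F (δ • w)) atImInfty (𝓝 L)) (m : ℤ) (γ : Γ)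
    (hγ : (γ : SL(2, ℤ)) = δ * ModularGroup.T ^ m * δ⁻¹) : hF.period γ = 0 := by
  refine parabolic_period_eq_zero_of_smul hF δ hL m γ fun w => ?_
  rw [hγ, ← mul_smul, ← mul_smul, inv_mul_cancel_right]

/-- Variant of `period_eq_zero_of_conj_T` for `γ = -(δ T^m δ⁻¹)`. -/
theorem parabolic_period_eq_zero_of_neg_conj_T {Γ : Subgroup SL(2, ℤ)} {F : ℍ → ℂ}
    (hF : IsEquivariantPrimitive Γ F) (δ : SL(2, ℤ)) {L : ℂ}
    (hL : Tendsto (fun w : ℍ => F (δ • w)) atImInfty (𝓝 L)) (m : ℤ) (γ : Γ)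
    (hγ : (γ : SL(2, ℤ)) = -(δ * ModularGroup.T ^ m * δ⁻¹)) : hF.period γ = 0 := by
  refine parabolic_period_eq_zero_of_smul hF δ hL m γ fun w => ?_
  rw [hγ, ModularGroup.SL_neg_smul, ← mul_smul, ← mul_smul,
    inv_mul_cancel_right]

/-- If `γ` fixes the first column of `δ`, then `γ = δ T^m δ⁻¹` for some `m`. -/
theorem parabolic_exists_conj_T_of_fix_col (γ δ : SL(2, ℤ))
    (h1 : γ 0 0 * δ 0 0 + γ 0 1 * δ 1 0 = δ 0 0)
    (h2 : γ 1 0 * δ 0 0 + γ 1 1 * δ 1 0 = δ 1 0) :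
    ∃ m : ℤ, γ = δ * ModularGroup.T ^ m * δ⁻¹ := by
  have hδ : δ 0 0 * δ 1 1 - δ 0 1 * δ 1 0 = 1 := by
    have := δ.2
    rwa [Matrix.det_fin_two] at this
  have hγ : γ 0 0 * γ 1 1 - γ 0 1 * γ 1 0 = 1 := by
    have := γ.2
    rwa [Matrix.det_fin_two] at this
  set M : SL(2, ℤ) := δ⁻¹ * γ * δ with hM
  have hM00 : M 0 0 = 1 := by
    simp only [hM, Matrix.SpecialLinearGroup.coe_mul, Matrix.SpecialLinearGroup.coe_inv,
      Matrix.adjugate_fin_two, Matrix.mul_apply, Fin.sum_univ_two, Matrix.of_apply,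
      Matrix.cons_val_zero, Matrix.cons_val_one, Matrix.cons_val', Matrix.cons_val_fin_one]
    linear_combination δ 1 1 * h1 - δ 0 1 * h2 + hδ
  have hM10 : M 1 0 = 0 := by
    simp only [hM, Matrix.SpecialLinearGroup.coe_mul, Matrix.SpecialLinearGroup.coe_inv,
      Matrix.adjugate_fin_two, Matrix.mul_apply, Fin.sum_univ_two, Matrix.of_apply,
      Matrix.cons_val_zero, Matrix.cons_val_one, Matrix.cons_val', Matrix.cons_val_fin_one]
    linear_combination (-δ 1 0) * h1 + δ 0 0 * h2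
  have hM11 : M 1 1 = 1 := by
    have := M.2
    rw [Matrix.det_fin_two, hM00, hM10] at this
    linarith
  refine ⟨M 0 1, ?_⟩
  have hMT : M = ModularGroup.T ^ (M 0 1) := by
    apply Matrix.SpecialLinearGroup.ext
    intro i j
    rw [ModularGroup.coe_T_zpow]
    fin_cases i <;> fin_cases j <;> simp [hM00, hM10, hM11]
  rw [← hMT, hM]
  group

/-- Trace-two elements of `SL(2,ℤ)` are conjugate to a power of `T`. -/
theorem parabolic_exists_conj_T_of_trace_eq_two (γ : SL(2, ℤ))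
    (hγ : (γ : Matrix (Fin 2) (Fin 2) ℤ).trace = 2) :
    ∃ (δ : SL(2, ℤ)) (m : ℤ), γ = δ * ModularGroup.T ^ m * δ⁻¹ := by
  have htr : γ 0 0 + γ 1 1 = 2 := by
    rwa [Matrix.trace_fin_two] at hγ
  have hdet : γ 0 0 * γ 1 1 - γ 0 1 * γ 1 0 = 1 := by
    have := γ.2
    rwa [Matrix.det_fin_two] at this
  -- a coprime fixed vector
  obtain ⟨x, y, hxy, hx, hy⟩ : ∃ x y : ℤ, IsCoprime x y ∧
      γ 0 0 * x + γ 0 1 * y = x ∧ γ 1 0 * x + γ 1 1 * y = y := by
    by_cases h0 : γ 0 1 = 0 ∧ 1 - γ 0 0 = 0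
    · refine ⟨0, 1, isCoprime_zero_left.mpr isUnit_one, ?_, ?_⟩
      · simp [h0.1]
      · have : γ 1 1 = 1 := by linarith [h0.2]
        simp [this]
    · have hg : 0 < Int.gcd (γ 0 1) (1 - γ 0 0) := by
        rw [Int.gcd_pos_iff]
        by_contra hcon
        exact h0 (not_or.mp hcon |>.imp not_not.mp not_not.mp)
      obtain ⟨x, y, hxy, hx, hy⟩ := Int.exists_gcd_one hg
      have hg' : ((Int.gcd (γ 0 1) (1 - γ 0 0) : ℕ) : ℤ) ≠ 0 := by
        exact_mod_cast hg.ne'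
      refine ⟨x, y, Int.isCoprime_iff_gcd_eq_one.mpr hxy, ?_, ?_⟩
      · apply mul_right_cancel₀ hg'
        linear_combination (1 - γ 0 0) * hx - γ 0 1 * hy
      · apply mul_right_cancel₀ hg'
        linear_combination (-γ 1 0) * hx - (γ 1 1 - 1) * hy - hdet + htr
  obtain ⟨δ, hδ0, hδ1⟩ := hxy.exists_SL2_col 0
  obtain ⟨m, hm⟩ := parabolic_exists_conj_T_of_fix_col γ δ (by rw [hδ0, hδ1]; exact hx)
    (by rw [hδ0, hδ1]; exact hy)
  exact ⟨δ, m, hm⟩

/-- Classification of the elements of `SL(2,ℤ)` with `trace² = 4`: they are `± δ T^m δ⁻¹`. -/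
theorem exists_conj_T_of_trace_sq (γ : SL(2, ℤ))
    (hγ : (γ : Matrix (Fin 2) (Fin 2) ℤ).trace ^ 2 = 4) :
    ∃ (δ : SL(2, ℤ)) (m : ℤ), γ = δ * ModularGroup.T ^ m * δ⁻¹ ∨
      γ = -(δ * ModularGroup.T ^ m * δ⁻¹) := by
  have h : (γ : Matrix (Fin 2) (Fin 2) ℤ).trace = 2 ∨
      (γ : Matrix (Fin 2) (Fin 2) ℤ).trace = -2 := by
    have h' : ((γ : Matrix (Fin 2) (Fin 2) ℤ).trace - 2) *
        ((γ : Matrix (Fin 2) (Fin 2) ℤ).trace + 2) = 0 := by
      linear_combination hγ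
    rcases mul_eq_zero.mp h' with h' | h'
    · left; linarith
    · right; linarith
  rcases h with h | h
  · obtain ⟨δ, m, hm⟩ := parabolic_exists_conj_T_of_trace_eq_two γ h
    exact ⟨δ, m, Or.inl hm⟩
  · have hneg : ((-γ : SL(2, ℤ)) : Matrix (Fin 2) (Fin 2) ℤ).trace = 2 := by
      rw [Matrix.SpecialLinearGroup.coe_neg, Matrix.trace_neg, h]
      norm_num
    obtain ⟨δ, m, hm⟩ := parabolic_exists_conj_T_of_trace_eq_two (-γ) hneg
    refine ⟨δ, m, Or.inr ?_⟩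
    rw [← hm, neg_neg]

/-- (B) the period homomorphism of an equivariant primitive (with limits at all cusps) is
parabolic. -/
theorem periodHom_mem_parabolicHoms (N : ℕ) [NeZero N] (f : CuspForm (Gamma0 N) 2) {F : ℍ → ℂ}
    (hF : HasEquivariantPrimitive N f F) :
    hF.2.2.1.periodHom ∈ parabolicHoms ℂ (Gamma0 N) ℂ := by
  rw [mem_parabolicHoms_iff]
  intro γ hγ
  rw [IsEquivariantPrimitive.periodHom_apply]
  obtain ⟨δ, m, hm | hm⟩ := exists_conj_T_of_trace_sq (γ : SL(2, ℤ)) hγ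
  · obtain ⟨L, hL⟩ := hF.2.2.2 δ
    exact period_eq_zero_of_conj_T hF.2.2.1 δ hL m γ hm
  · obtain ⟨L, hL⟩ := hF.2.2.2 δ
    exact parabolic_period_eq_zero_of_neg_conj_T hF.2.2.1 δ hL m γ hm

end Fermat.Agent.S21L
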