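/-
S21 (Eichler–Shimura), part C2: the maximum principle on `Γ₀(N) \ ℍ*`.
-/
import Mathlib
import Fermat.Prelude.Def_ModularCurve_PeriodHomPair
import Fermat.Agent.S21L.Parabolic
import Fermat.Agent.S21L.MaxSup

set_option autoImplicit false

noncomputable section

open UpperHalfPlane CongruenceSubgroup Filter Topology ModularCurve ModularCurve.Period
open scoped MatrixGroups ModularForm Manifold

namespace Fermat.Agent.S21L

/-- A function on `ℍ` with a complex derivative everywhere is continuous. -/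
theorem maxPrinciple_continuous (K k : ℍ → ℂ)
    (hK : ∀ τ : ℍ, HasDerivAt (K ∘ ofComplex) (k τ) ↑τ) : Continuous K := by
  rw [continuous_iff_continuousAt]
  intro τ
  have h1 : ContinuousAt (K ∘ ofComplex) (τ : ℂ) := (hK τ).continuousAt
  have h2 : ContinuousAt (fun z : ℍ => (z : ℂ)) τ := UpperHalfPlane.continuous_coe.continuousAt
  have h3 : ContinuousAt ((K ∘ ofComplex) ∘ fun z : ℍ => (z : ℂ)) τ :=
    ContinuousAt.comp (g := K ∘ ofComplex) (f := fun z : ℍ => (z : ℂ)) h1 h2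
  have h4 : ((K ∘ ofComplex) ∘ fun z : ℍ => (z : ℂ)) = K := by
    funext z
    simp [ofComplex_apply]
  rwa [h4] at h3

/-- A function on `ℍ` with a complex derivative everywhere is holomorphic. -/
theorem maxPrinciple_mdiff (K k : ℍ → ℂ)
    (hK : ∀ τ : ℍ, HasDerivAt (K ∘ ofComplex) (k τ) ↑τ) : MDiff K := by
  rw [UpperHalfPlane.mdifferentiable_iff]
  intro z hz
  exact ((hK ⟨z, hz⟩).differentiableAt).differentiableWithinAt

/-- If `Re K` attains its maximum at an interior point, then `K` is constant. -/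
theorem maxPrinciple_of_max (K k : ℍ → ℂ)
    (hK : ∀ τ : ℍ, HasDerivAt (K ∘ ofComplex) (k τ) ↑τ) (z₀ : ℍ)
    (hmax : ∀ z, (K z).re ≤ (K z₀).re) : ∀ τ, k τ = 0 := by
  set E : ℂ → ℂ := fun z => Complex.exp ((K ∘ ofComplex) z) with hE
  have hUo : IsOpen {z : ℂ | 0 < z.im} := isOpen_upperHalfPlaneSet
  have hUc : IsPreconnected {z : ℂ | 0 < z.im} := (convex_halfSpace_im_gt 0).isPreconnected
  have hEd : DifferentiableOn ℂ E {z : ℂ | 0 < z.im} := fun z hz =>
    ((hK ⟨z, hz⟩).cexp.differentiableAt).differentiableWithinAt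
  have hmaxE : IsMaxOn (norm ∘ E) {z : ℂ | 0 < z.im} (z₀ : ℂ) := by
    intro z hz
    simp only [Function.comp_apply, E, Complex.norm_exp, ofComplex_apply,
      Real.exp_le_exp]
    exact hmax _
  have hconst := Complex.eqOn_of_isPreconnected_of_isMaxOn_norm hUc hUo hEd z₀.2 hmaxE
  intro τ
  have hd : HasDerivAt E (Complex.exp (K τ) * k τ) τ := by
    have h := (hK τ).cexp
    rw [Function.comp_apply, ofComplex_apply] at h
    exact h
  have hd0 : HasDerivAt E 0 τ := by
    have : E =ᶠ[𝓝 (τ : ℂ)] fun _ => E z₀ := by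
      filter_upwards [hUo.mem_nhds τ.2] with z hz using hconst hz
    exact (hasDerivAt_const _ _).congr_of_eventuallyEq this
  have := hd.unique hd0
  exact (mul_eq_zero.mp this).resolve_left (Complex.exp_ne_zero _)

/-- Conjugates of `T ^ N` lie in `Γ₀(N)`. -/
theorem maxPrinciple_conj_mem (N : ℕ) (δ : SL(2, ℤ)) :
    δ * ModularGroup.T ^ (N : ℤ) * δ⁻¹ ∈ Gamma0 N := by
  have h1 : ModularGroup.T ^ (N : ℤ) ∈ Gamma N := by
    simpa using ModularGroup_T_pow_mem_Gamma (N : ℤ) (N : ℤ) dvd_rfl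
  have h2 : δ * ModularGroup.T ^ (N : ℤ) * δ⁻¹ ∈ Gamma N := (Gamma_normal N).conj_mem _ h1 δ
  rw [Gamma_mem] at h2
  rw [Gamma0_mem]
  exact h2.2.2.1

/-- If `Re K ≤ m` and `Re K ∘ δ` tends to `m` at `i∞`, then `Re K` attains the value `m`. -/
theorem maxPrinciple_cusp (N : ℕ) [NeZero N] (K k : ℍ → ℂ)
    (hK : ∀ τ : ℍ, HasDerivAt (K ∘ ofComplex) (k τ) ↑τ)
    (hEq : IsEquivariantPrimitive (Gamma0 N) K) (δ : SL(2, ℤ)) (L : ℂ)
    (hL : Tendsto (fun w : ℍ => K (δ • w)) atImInfty (𝓝 L))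
    (hmax : ∀ z, (K z).re ≤ L.re) : ∃ z₀, (K z₀).re = L.re := by
  set G : ℍ → ℂ := fun w : ℍ => K (δ • w) with hG
  have hNpos : (0 : ℝ) < (N : ℝ) := Nat.cast_pos.mpr (NeZero.pos N)
  -- invariance under `T ^ N`
  have hper0 : ∀ w : ℍ, G (ModularGroup.T ^ (N : ℤ) • w) = G w := by
    intro w
    have hp : hEq.period ⟨_, maxPrinciple_conj_mem N δ⟩ = 0 :=
      period_eq_zero_of_conj_T hEq δ hL (N : ℤ) ⟨_, maxPrinciple_conj_mem N δ⟩ rfl
    have h1 := hEq.sub_eq_period ⟨_, maxPrinciple_conj_mem N δ⟩ (δ • w)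
    rw [hp] at h1
    have h2 : (δ * ModularGroup.T ^ (N : ℤ) * δ⁻¹) • (δ • w)
        = δ • (ModularGroup.T ^ (N : ℤ) • w) := by
      rw [← mul_smul, ← mul_smul, inv_mul_cancel_right]
    simp only [hG]
    rw [← h2]
    exact sub_eq_zero.mp h1
  have hper : Function.Periodic (G ∘ ofComplex) ((N : ℝ) : ℂ) := by
    intro w
    by_cases hw : 0 < Complex.im w
    · have hw' : 0 < Complex.im (w + ((N : ℝ) : ℂ)) := by simpa using hw
      simp only [Function.comp_apply, ofComplex_apply_of_im_pos hw',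
        ofComplex_apply_of_im_pos hw]
      have h := hper0 ⟨w, hw⟩
      rw [modular_T_zpow_smul] at h
      rw [← h]
      congr 1
      ext
      simp [add_comm]
    · have hw0 : Complex.im w ≤ 0 := not_lt.mp hw
      have hw' : Complex.im (w + ((N : ℝ) : ℂ)) ≤ 0 := by simpa using hw0
      rw [Function.comp_apply, Function.comp_apply, ofComplex_apply_of_im_nonpos hw',
        ofComplex_apply_of_im_nonpos hw0]
  have hGhol : MDiff G := by
    have h1 : MDiff K := maxPrinciple_mdiff K k hK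
    have h2 : MDiff (fun τ : ℍ => ((δ : GL (Fin 2) ℝ)) • τ) :=
      mdifferentiable_smul (g := (δ : GL (Fin 2) ℝ)) (by simp)
    exact h1.comp h2
  have hGbdd : IsBoundedAtImInfty G := hL.isBigO_one ℝ
  set g : ℂ → ℂ := cuspFunction (N : ℝ) G with hg
  have hgd : DifferentiableOn ℂ g (Metric.ball 0 1) :=
    differentiableOn_cuspFunction_ball hNpos hper hGhol hGbdd
  have hg0 : g 0 = L := by
    rw [hg, cuspFunction_apply_zero hNpos
      (analyticAt_cuspFunction_zero hNpos hper hGhol hGbdd) hper]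
    exact hL.limUnder_eq
  have hgG : ∀ w : ℍ, g (Function.Periodic.qParam (N : ℝ) w) = G w := fun w =>
    eq_cuspFunction w hNpos.ne' hper
  have hgle : ∀ q ∈ Metric.ball (0 : ℂ) 1, (g q).re ≤ L.re := by
    intro q hq
    rcases eq_or_ne q 0 with rfl | hq0
    · rw [hg0]
    · have hq1 : ‖q‖ < 1 := mem_ball_zero_iff.mp hq
      have him := Function.Periodic.im_invQParam_pos_of_norm_lt_one hNpos hq1 hq0
      have h1 := hgG ⟨_, him⟩
      rw [UpperHalfPlane.coe_mk, Function.Periodic.qParam_right_inv hNpos.ne' hq0] at h1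
      rw [h1]
      exact hmax _
  have hed : DifferentiableOn ℂ (fun q => Complex.exp (g q)) (Metric.ball 0 1) :=
    hgd.cexp
  have hemax : IsMaxOn (norm ∘ fun q => Complex.exp (g q)) (Metric.ball 0 1) (0 : ℂ) := by
    intro q hq
    simp only [Function.comp_apply, Complex.norm_exp, Real.exp_le_exp, hg0]
    exact hgle q hq
  have hconst := Complex.eqOn_of_isPreconnected_of_isMaxOn_norm
    (convex_ball (0 : ℂ) 1).isPreconnected Metric.isOpen_ball hed
    (Metric.mem_ball_self one_pos) hemax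
  refine ⟨δ • UpperHalfPlane.I, ?_⟩
  have hqI : Function.Periodic.qParam (N : ℝ) (UpperHalfPlane.I : ℍ) ∈ Metric.ball (0 : ℂ) 1 :=
    mem_ball_zero_iff.mpr
      (Function.Periodic.norm_qParam_lt_one hNpos UpperHalfPlane.I.2)
  have h1 := hconst hqI
  simp only [hgG, hg0, Function.const_apply] at h1
  have h2 := congrArg norm h1
  simp only [Complex.norm_exp, Real.exp_eq_exp] at h2
  exact h2

/-- **Maximum principle.**  Let `K` be holomorphic on `ℍ` with derivative `k`, such that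
`K(γ z) - K(z)` is a constant for every `γ ∈ Γ₀(N)`, `Re K` is `Γ₀(N)`-invariant, and
`K ∘ δ` has a limit at `i∞` for every `δ ∈ SL(2,ℤ)`.  Then `K` is constant, i.e. `k = 0`. -/
theorem maxPrinciple (N : ℕ) [NeZero N] (K k : ℍ → ℂ)
    (hK : ∀ τ : ℍ, HasDerivAt (K ∘ ofComplex) (k τ) ↑τ)
    (hEq : IsEquivariantPrimitive (Gamma0 N) K)
    (hRe : ∀ γ ∈ Gamma0 N, ∀ z : ℍ, (K (γ • z)).re = (K z).re)
    (hcusp : ∀ δ : SL(2, ℤ), ∃ L : ℂ, Tendsto (fun w : ℍ => K (δ • w)) atImInfty (𝓝 L)) :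
    ∀ τ, k τ = 0 := by
  have hcont : Continuous fun z : ℍ => (K z).re :=
    Complex.continuous_re.comp (maxPrinciple_continuous K k hK)
  obtain ⟨m, hm, hcase⟩ := exists_max_or_cusp N (fun z : ℍ => (K z).re) hcont hRe (by
    intro δ
    obtain ⟨L, hL⟩ := hcusp δ
    exact ⟨L.re, (Complex.continuous_re.tendsto L).comp hL⟩)
  have hz₀ : ∃ z₀, (K z₀).re = m := by
    rcases hcase with h | ⟨δ, hδ⟩
    · exact h
    · obtain ⟨L, hL⟩ := hcusp δ
      have hLm : L.re = m :=
        tendsto_nhds_unique ((Complex.continuous_re.tendsto L).comp hL) hδ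
      rw [← hLm]
      exact maxPrinciple_cusp N K k hK hEq δ L hL (fun z => hLm ▸ hm z)
  obtain ⟨z₀, hz₀⟩ := hz₀
  exact maxPrinciple_of_max K k hK z₀ (fun z => hz₀ ▸ hm z)

end Fermat.Agent.S21L
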