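/-
S21 (Eichler–Shimura), part C3: injectivity of the two halves of the period pairing.
-/
import Mathlib
import Fermat.Prelude.Def_ModularCurve_PeriodHomPair
import Fermat.Agent.S21L.MaxPrinciple

set_option autoImplicit false

noncomputable section

open UpperHalfPlane CongruenceSubgroup Filter Topology ModularCurve ModularCurve.Period
open scoped MatrixGroups ModularForm

namespace Fermat.Agent.S21L

/-- The anti-holomorphic involution `z ↦ -z̄` of the upper half plane. -/
def injectiveCc (z : ℍ) : ℍ :=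
  ⟨-(starRingEnd ℂ) (z : ℂ), by
    have := z.coe_im_pos
    simpa using this⟩

theorem injectiveCc_coe (z : ℍ) :
    ((injectiveCc z : ℍ) : ℂ) = -(starRingEnd ℂ) (z : ℂ) := rfl

theorem injectiveCc_im (z : ℍ) : (injectiveCc z).im = z.im := by
  show ((injectiveCc z : ℍ) : ℂ).im = (z : ℂ).im
  rw [injectiveCc_coe]; simp

theorem injectiveCc_smul (δ : SL(2, ℤ)) (z : ℍ) :
    jConjSL δ • injectiveCc z = injectiveCc (δ • z) := by
  apply UpperHalfPlane.ext
  have h1 := coe_specialLinearGroup_apply (jConjSL δ) (injectiveCc z)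
  have h2 := coe_specialLinearGroup_apply δ z
  have h3 : ((injectiveCc (δ • z) : ℍ) : ℂ) = -(starRingEnd ℂ) ((δ • z : ℍ) : ℂ) := rfl
  show ((jConjSL δ • injectiveCc z : ℍ) : ℂ) = ((injectiveCc (δ • z) : ℍ) : ℂ)
  rw [h1, h3, h2, injectiveCc_coe]
  simp only [jConjSL_coe, jConjMat_apply_zero_zero, jConjMat_apply_zero_one,
    jConjMat_apply_one_zero, jConjMat_apply_one_one, map_div₀, map_add, map_mul,
    Complex.conj_ofReal, algebraMap_int_eq, Int.coe_castRingHom, Int.cast_neg,
    Complex.ofReal_neg]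
  rw [← neg_div]
  congr 1 <;> ring

theorem injectiveCc_tendsto : Tendsto injectiveCc atImInfty atImInfty := by
  unfold atImInfty
  rw [tendsto_comap_iff]
  have : UpperHalfPlane.im ∘ injectiveCc = UpperHalfPlane.im := by
    funext z; exact injectiveCc_im z
  rw [this]
  exact tendsto_comap

/-- The reflected primitive `w ↦ conj (F (-w̄))`. -/
def injectiveFc (F : ℍ → ℂ) : ℍ → ℂ := fun w => (starRingEnd ℂ) (F (injectiveCc w))

theorem injectiveFc_hasDerivAt {F f : ℍ → ℂ}
    (hF : ∀ τ : ℍ, HasDerivAt (F ∘ ofComplex) (f τ) ↑τ) (τ : ℍ) :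
    HasDerivAt (injectiveFc F ∘ ofComplex) (-(starRingEnd ℂ) (f (injectiveCc τ))) ↑τ := by
  have h0 := hF (injectiveCc τ)
  have h1 := h0.conj_conj
  have hx : (starRingEnd ℂ) ((injectiveCc τ : ℍ) : ℂ) = -(τ : ℂ) := by
    rw [injectiveCc_coe]; simp
  rw [hx] at h1
  have h2 : HasDerivAt (fun w : ℂ => -w) (-1) (τ : ℂ) := hasDerivAt_neg _
  have h3 := HasDerivAt.comp (τ : ℂ) h1 h2
  have h4 : (starRingEnd ℂ) (f (injectiveCc τ)) * (-1) = -(starRingEnd ℂ) (f (injectiveCc τ)) := by
    ring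
  rw [h4] at h3
  refine h3.congr_of_eventuallyEq ?_
  have hopen : {w : ℂ | 0 < w.im} ∈ 𝓝 (τ : ℂ) :=
    (isOpen_lt continuous_const Complex.continuous_im).mem_nhds τ.coe_im_pos
  filter_upwards [hopen] with w hw
  have hw' : 0 < ((starRingEnd ℂ) (-w)).im := by simpa using hw
  show (starRingEnd ℂ) (F (injectiveCc (ofComplex w)))
    = (starRingEnd ℂ) (F (ofComplex ((starRingEnd ℂ) (-w))))
  congr 2
  apply UpperHalfPlane.ext
  rw [injectiveCc_coe, ofComplex_apply_of_im_pos hw, ofComplex_apply_of_im_pos hw']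
  simp

theorem injectiveFc_smul {N : ℕ} {F : ℍ → ℂ} (hF : IsEquivariantPrimitive (Gamma0 N) F)
    (γ : Gamma0 N) (w : ℍ) :
    injectiveFc F ((γ : SL(2, ℤ)) • w) - injectiveFc F w
      = (starRingEnd ℂ) (hF.period (jConjGamma0 N γ)) := by
  have h := hF.sub_eq_period (jConjGamma0 N γ) (injectiveCc w)
  rw [jConjGamma0_coe, injectiveCc_smul] at h
  unfold injectiveFc
  rw [← h, map_sub]

theorem injectiveFc_cusp {F : ℍ → ℂ}
    (hF : ∀ δ : SL(2, ℤ), ∃ L : ℂ, Tendsto (fun w : ℍ => F (δ • w)) atImInfty (𝓝 L))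
    (δ : SL(2, ℤ)) :
    ∃ L : ℂ, Tendsto (fun w : ℍ => injectiveFc F (δ • w)) atImInfty (𝓝 L) := by
  obtain ⟨L, hL⟩ := hF (jConjSL δ)
  refine ⟨(starRingEnd ℂ) L, ?_⟩
  have h1 := hL.comp injectiveCc_tendsto
  have h2 := (Complex.continuous_conj.tendsto L).comp h1
  refine h2.congr fun w => ?_
  show (starRingEnd ℂ) (F (jConjSL δ • injectiveCc w)) = injectiveFc F (δ • w)
  rw [injectiveCc_smul]; rfl

/-- Application of the maximum principle to `a F + b Fc`. -/
theorem injective_lincomb (N : ℕ) [NeZero N] (f : CuspForm (Gamma0 N) 2) {F : ℍ → ℂ}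
    (hF : HasEquivariantPrimitive N f F) (a b : ℂ)
    (hre : ∀ γ : Gamma0 N, (a * hF.2.2.1.period γ
      + b * (starRingEnd ℂ) (hF.2.2.1.period (jConjGamma0 N γ))).re = 0) :
    ∀ τ : ℍ, a * f τ - b * (starRingEnd ℂ) (f (injectiveCc τ)) = 0 := by
  have hdiff : ∀ (γ : Gamma0 N) (z : ℍ),
      (a * F ((γ : SL(2, ℤ)) • z) + b * injectiveFc F ((γ : SL(2, ℤ)) • z))
        - (a * F z + b * injectiveFc F z)
      = a * hF.2.2.1.period γ
        + b * (starRingEnd ℂ) (hF.2.2.1.period (jConjGamma0 N γ)) := by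
    intro γ z
    rw [← hF.2.2.1.sub_eq_period γ z, ← injectiveFc_smul hF.2.2.1 γ z]
    ring
  have key := maxPrinciple N (fun w => a * F w + b * injectiveFc F w)
    (fun τ => a * f τ + b * (-(starRingEnd ℂ) (f (injectiveCc τ)))) ?_ ?_ ?_ ?_
  · intro τ
    have := key τ
    rw [← this]; ring
  · intro τ
    have h1 := (hF.1 τ).const_mul a
    have h2 := (injectiveFc_hasDerivAt (f := f) hF.1 τ).const_mul b
    exact h1.add h2
  · intro γ
    exact ⟨_, fun z => hdiff γ z⟩
  · intro γ hγ z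
    have h1 := hdiff ⟨γ, hγ⟩ z
    have h2 := hre ⟨γ, hγ⟩
    rw [← h1] at h2
    rw [Complex.sub_re] at h2
    linarith
  · intro δ
    obtain ⟨L1, hL1⟩ := hF.2.2.2 δ
    obtain ⟨L2, hL2⟩ := injectiveFc_cusp hF.2.2.2 δ
    exact ⟨a * L1 + b * L2, (hL1.const_mul a).add (hL2.const_mul b)⟩

/-- Common statement with a real sign `ε`. -/
theorem injective_common (N : ℕ) [NeZero N] (f : CuspForm (Gamma0 N) 2) {F : ℍ → ℂ}
    (hF : HasEquivariantPrimitive N f F) (ε : ℝ)
    (h : ∀ γ : Gamma0 N, hF.2.2.1.period γ + (ε : ℂ) * hF.2.2.1.period (jConjGamma0 N γ) = 0) :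
    f = 0 := by
  have h1 := injective_lincomb N f hF 1 (ε : ℂ) (by
    intro γ
    have := congrArg Complex.re (h γ)
    simpa using this)
  have h2 := injective_lincomb N f hF (-Complex.I) (Complex.I * (ε : ℂ)) (by
    intro γ
    have := congrArg Complex.im (h γ)
    simp at this
    simp
    linarith)
  refine DFunLike.ext _ _ fun τ => ?_
  have e1 := h1 τ
  have e2 := h2 τ
  show f τ = 0
  have e3 : Complex.I * (-Complex.I * f τ
      - Complex.I * (ε : ℂ) * (starRingEnd ℂ) (f (injectiveCc τ))) = 0 := by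
    rw [e2, mul_zero]
  have e4 : Complex.I * (-Complex.I * f τ
      - Complex.I * (ε : ℂ) * (starRingEnd ℂ) (f (injectiveCc τ)))
      = f τ + (ε : ℂ) * (starRingEnd ℂ) (f (injectiveCc τ)) := by
    ring_nf
    rw [Complex.I_sq]; ring
  rw [e4] at e3
  have e5 : 2 * f τ = 0 := by linear_combination e1 + e3
  simpa using e5

/-- If the period homomorphism `P` of `f` satisfies `P + ι P = 0`, then `f = 0`. -/
theorem eq_zero_of_periodHom_add (N : ℕ) [NeZero N] (f : CuspForm (Gamma0 N) 2) {F : ℍ → ℂ}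
    (hF : HasEquivariantPrimitive N f F)
    (h : hF.2.2.1.periodHom + charInvolution N ℂ ℂ hF.2.2.1.periodHom = 0) : f = 0 := by
  refine injective_common N f hF 1 fun γ => ?_
  have := DFunLike.congr_fun h (Additive.ofMul γ)
  simpa using this

/-- If the period homomorphism `P` of `f` satisfies `P - ι P = 0`, then `f = 0`. -/
theorem eq_zero_of_periodHom_sub (N : ℕ) [NeZero N] (f : CuspForm (Gamma0 N) 2) {F : ℍ → ℂ}
    (hF : HasEquivariantPrimitive N f F)
    (h : hF.2.2.1.periodHom - charInvolution N ℂ ℂ hF.2.2.1.periodHom = 0) : f = 0 := by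
  refine injective_common N f hF (-1) fun γ => ?_
  have := DFunLike.congr_fun h (Additive.ofMul γ)
  simp only [AddMonoidHom.sub_apply, charInvolution_apply, toMul_ofMul,
    IsEquivariantPrimitive.periodHom_apply, AddMonoidHom.zero_apply] at this
  push_cast
  linear_combination this

end Fermat.Agent.S21L
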