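/-
S21 (Eichler–Shimura), part A: existence and uniqueness of equivariant primitives,
linearity of the period map.
-/
import Mathlib
import Fermat.Prelude.Def_ModularCurve_PeriodHomPair
import Fermat.Agent.S22.AnInterface

set_option autoImplicit false

noncomputable section

open UpperHalfPlane CongruenceSubgroup Filter Topology ModularCurve ModularCurve.Period
open scoped MatrixGroups ModularForm

namespace Fermat.Agent.S21L

/-- The canonical primitive `F(z) = -∫_z^{i∞} f(w) dw` of a weight-2 cusp form. -/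
def prim (N : ℕ) (f : CuspForm (Gamma0 N) 2) : ℍ → ℂ :=
  Fermat.Agent.S22.P 0 (f : ℍ → ℂ)

/-- Every `SL(2,ℤ)`-translate of a weight-2 cusp form is admissible. -/
theorem primitive_isAdm_slash (N : ℕ) [NeZero N] (f : CuspForm (Gamma0 N) 2) (g : SL(2, ℤ)) :
    Fermat.Agent.S22.IsAdm ((f : ℍ → ℂ) ∣[(2 : ℤ)] g) :=
  Fermat.Agent.S22.isAdm_cuspForm_slash N 2 f g

/-- A weight-2 cusp form is admissible. -/
theorem primitive_isAdm (N : ℕ) [NeZero N] (f : CuspForm (Gamma0 N) 2) :
    Fermat.Agent.S22.IsAdm (f : ℍ → ℂ) := by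
  have h1 := primitive_isAdm_slash N f 1
  rwa [SlashAction.slash_one] at h1

/-- A weight-2 cusp form is nice (index `0`). -/
theorem primitive_nice (N : ℕ) [NeZero N] (f : CuspForm (Gamma0 N) 2) :
    Fermat.Agent.S22.Nice 0 (f : ℍ → ℂ) :=
  fun g => primitive_isAdm_slash N f g

theorem primitive_E_zero (h : ℍ → ℂ) (x y : ℂ) (z : ℍ) :
    Fermat.Agent.S22.E 0 h x y z = Fermat.Agent.S22.P 0 h z := by
  simp [Fermat.Agent.S22.E]

/-- `P 0 h` tends to `0` at `i∞` for admissible `h`. -/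
theorem primitive_tendsto_P_zero {h : ℍ → ℂ} (H : Fermat.Agent.S22.IsAdm h) :
    Tendsto (Fermat.Agent.S22.P 0 h) atImInfty (𝓝 0) := by
  have h1 := Fermat.Agent.S22.isZeroAtImInfty_E_contraction H 0
  have h2 : (fun z : ℍ => Fermat.Agent.S22.E 0 h (z : ℂ) 1 z) = Fermat.Agent.S22.P 0 h := by
    funext z
    exact primitive_E_zero h _ _ z
  rw [h2] at h1
  exact h1

/-- The basic transformation rule: `P 0 h (g • z) - P 0 (h ∣[2] g) z` does not depend on `z`. -/
theorem primitive_P_slash {h : ℍ → ℂ} (H : Fermat.Agent.S22.Nice 0 h) (g : SL(2, ℤ)) (z z' : ℍ) :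
    Fermat.Agent.S22.P 0 h (g • z) - Fermat.Agent.S22.P 0 (h ∣[(2 : ℤ)] g) z
      = Fermat.Agent.S22.P 0 h (g • z') - Fermat.Agent.S22.P 0 (h ∣[(2 : ℤ)] g) z' := by
  have h1 := Fermat.Agent.S22.E_slash_SL 0 H g 0 0 z z'
  simp only [primitive_E_zero] at h1
  exact h1

theorem prim_add (N : ℕ) [NeZero N] (f g : CuspForm (Gamma0 N) 2) (z : ℍ) :
    prim N (f + g) z = prim N f z + prim N g z := by
  unfold prim
  have e : ((f + g : CuspForm (Gamma0 N) 2) : ℍ → ℂ) = (f : ℍ → ℂ) + (g : ℍ → ℂ) := rfl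
  rw [e]
  exact Fermat.Agent.S22.P_add 0 (primitive_isAdm N f) (primitive_isAdm N g) z

theorem prim_smul (N : ℕ) [NeZero N] (c : ℂ) (f : CuspForm (Gamma0 N) 2) (z : ℍ) :
    prim N (c • f) z = c * prim N f z := by
  unfold prim
  have e : ((c • f : CuspForm (Gamma0 N) 2) : ℍ → ℂ) = c • (f : ℍ → ℂ) := rfl
  rw [e]
  exact Fermat.Agent.S22.P_smul 0 c _ z

/-- (A) the canonical primitive is an equivariant primitive with limits at all cusps. -/
theorem hasEquivariantPrimitive_prim (N : ℕ) [NeZero N] (f : CuspForm (Gamma0 N) 2) :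
    HasEquivariantPrimitive N f (prim N f) := by
  have Hadm := primitive_isAdm N f
  have Hnice := primitive_nice N f
  refine ⟨?_, ?_, ?_, ?_⟩
  · intro τ
    have h1 := Fermat.Agent.S22.hasDerivAt_P Hadm 0 τ
    simp only [pow_zero, mul_one] at h1
    exact h1
  · exact primitive_tendsto_P_zero Hadm
  · intro γ
    have hinv : (f : ℍ → ℂ) ∣[(2 : ℤ)] (γ : SL(2, ℤ)) = f :=
      SlashInvariantFormClass.slash_action_eq f
        (Matrix.SpecialLinearGroup.mapGL ℝ (γ : SL(2, ℤ))) ⟨γ, γ.2, rfl⟩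
    refine ⟨prim N f ((γ : SL(2, ℤ)) • UpperHalfPlane.I) - prim N f UpperHalfPlane.I, ?_⟩
    intro z
    have h1 := primitive_P_slash Hnice (γ : SL(2, ℤ)) z UpperHalfPlane.I
    rw [hinv] at h1
    exact h1
  · intro δ
    refine ⟨Fermat.Agent.S22.P 0 (f : ℍ → ℂ) (δ • UpperHalfPlane.I)
      - Fermat.Agent.S22.P 0 ((f : ℍ → ℂ) ∣[(2 : ℤ)] δ) UpperHalfPlane.I, ?_⟩
    have h0 := primitive_tendsto_P_zero (primitive_isAdm_slash N f δ)
    have h1 : (fun w : ℍ => prim N f (δ • w))
        = fun w : ℍ => (Fermat.Agent.S22.P 0 (f : ℍ → ℂ) (δ • UpperHalfPlane.I)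
            - Fermat.Agent.S22.P 0 ((f : ℍ → ℂ) ∣[(2 : ℤ)] δ) UpperHalfPlane.I)
            + Fermat.Agent.S22.P 0 ((f : ℍ → ℂ) ∣[(2 : ℤ)] δ) w := by
      funext w
      have h2 := primitive_P_slash Hnice δ w UpperHalfPlane.I
      show Fermat.Agent.S22.P 0 (f : ℍ → ℂ) (δ • w) = _
      linear_combination h2
    rw [h1]
    have h3 := (tendsto_const_nhds (x := Fermat.Agent.S22.P 0 (f : ℍ → ℂ) (δ • UpperHalfPlane.I)
      - Fermat.Agent.S22.P 0 ((f : ℍ → ℂ) ∣[(2 : ℤ)] δ) UpperHalfPlane.I)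
      (f := (atImInfty : Filter ℍ))).add h0
    rw [add_zero] at h3
    exact h3

/-- Two primitives of the same function on the upper half-plane differ by a constant. -/
theorem primitive_sub_const {φ : ℍ → ℂ} {F G : ℍ → ℂ}
    (hF : ∀ τ : ℍ, HasDerivAt (F ∘ ofComplex) (φ τ) ↑τ)
    (hG : ∀ τ : ℍ, HasDerivAt (G ∘ ofComplex) (φ τ) ↑τ) (z w : ℍ) :
    F z - G z = F w - G w := by
  have key : ∀ u : ℂ, 0 < u.im →
      HasDerivAt (fun v : ℂ => (F ∘ ofComplex) v - (G ∘ ofComplex) v) 0 u := by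
    intro u hu
    have h1 := (hF ⟨u, hu⟩).sub (hG ⟨u, hu⟩)
    rw [sub_self] at h1
    exact h1
  have hopen : IsOpen {u : ℂ | 0 < u.im} := isOpen_lt continuous_const Complex.continuous_im
  have hconv : Convex ℝ {u : ℂ | 0 < u.im} := convex_halfSpace_im_gt 0
  have h2 := hopen.is_const_of_deriv_eq_zero hconv.isPreconnected
    (f := fun v : ℂ => (F ∘ ofComplex) v - (G ∘ ofComplex) v)
    (fun x hx => (key x hx).differentiableAt.differentiableWithinAt)
    (fun x hx => (key x hx).deriv) (x := (z : ℂ)) (y := (w : ℂ)) z.im_pos w.im_pos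
  simpa [Function.comp, ofComplex_apply] using h2

/-- Uniqueness: the period homomorphism does not depend on the primitive. -/
theorem periodMap_eq_periodHom (N : ℕ) [NeZero N] (f : CuspForm (Gamma0 N) 2) {F : ℍ → ℂ}
    (hF : HasEquivariantPrimitive N f F) :
    periodMap N f = hF.2.2.1.periodHom := by
  obtain ⟨F₀, h₀, h0⟩ := ModularCurve.periodMap_def N f hF
  rw [h0]
  refine AddMonoidHom.ext fun γ => ?_
  show F₀ (((Additive.toMul γ : Gamma0 N) : SL(2, ℤ)) • UpperHalfPlane.I) - F₀ UpperHalfPlane.I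
    = F (((Additive.toMul γ : Gamma0 N) : SL(2, ℤ)) • UpperHalfPlane.I) - F UpperHalfPlane.I
  have h1 := primitive_sub_const h₀.1 hF.1
    (((Additive.toMul γ : Gamma0 N) : SL(2, ℤ)) • UpperHalfPlane.I) UpperHalfPlane.I
  linear_combination h1

theorem periodMap_apply (N : ℕ) [NeZero N] (f : CuspForm (Gamma0 N) 2) (γ : Gamma0 N) :
    periodMap N f (Additive.ofMul γ)
      = prim N f ((γ : SL(2, ℤ)) • UpperHalfPlane.I) - prim N f UpperHalfPlane.I := by
  rw [periodMap_eq_periodHom N f (hasEquivariantPrimitive_prim N f)]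
  rfl

theorem existsPeriodMapLinear (N : ℕ) [NeZero N] : ExistsPeriodMapLinear N := by
  refine ⟨{ toFun := fun f => periodMap N f, map_add' := ?_, map_smul' := ?_ }, fun f => rfl⟩
  · intro f g
    refine AddMonoidHom.ext fun γ => ?_
    show periodMap N (f + g) (Additive.ofMul (Additive.toMul γ))
      = periodMap N f (Additive.ofMul (Additive.toMul γ))
        + periodMap N g (Additive.ofMul (Additive.toMul γ))
    rw [periodMap_apply, periodMap_apply, periodMap_apply, prim_add, prim_add]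
    ring
  · intro c f
    refine AddMonoidHom.ext fun γ => ?_
    show periodMap N (c • f) (Additive.ofMul (Additive.toMul γ))
      = c • periodMap N f (Additive.ofMul (Additive.toMul γ))
    rw [periodMap_apply, periodMap_apply, prim_smul, prim_smul, smul_eq_mul]
    ring

end Fermat.Agent.S21L
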